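import Fermat.Agent.PIC.Curve.Model
import Fermat.Prelude.Def_AlgebraicGeometry_RelativePicardFunctor

/-!
# A two-chart model over an affine base

The preimages of the charts in the base change of the curve to `Spec B` have the rings
`B ⊗[k] A` as their rings of functions, compatibly with restriction, base change and the section.
-/

set_option autoImplicit false

universe u

open CategoryTheory CategoryTheory.Limits AlgebraicGeometry NeronModelInfra
open AlgebraicGeometry.RelPicard
open scoped TensorProduct

namespace Fermat.PIC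

noncomputable section

variable {k : Type u} [Field k] {C : Scheme.{u}} (c : C ⟶ Spec (CommRingCat.of k))
variable (B : Type u) [CommRing B] [Algebra k B]

/-- The structure map of an affine base. -/
abbrev specStr : Spec (CommRingCat.of B) ⟶ Spec (CommRingCat.of k) :=
  Spec.map (CommRingCat.ofHom (algebraMap k B))

/-- Every morphism from an affine scheme to the base makes its ring an algebra. -/
lemma exists_algebra_specStr (R : Type u) [CommRing R]
    (f : Spec (CommRingCat.of R) ⟶ Spec (CommRingCat.of k)) :
    ∃ _ : Algebra k R, specStr (k := k) R = f :=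
  ⟨(Spec.preimage f).hom.toAlgebra, Spec.map_preimage f⟩

/-- The preimage of an open in the base change of the curve. -/
abbrev preU (U : C.Opens) : (pullback c (specStr (k := k) B)).Opens :=
  pullback.fst c (specStr B) ⁻¹ᵁ U

/-- The projection of an affine base change to the curve is affine. -/
instance isAffineHom_fst_specStr : IsAffineHom (pullback.fst c (specStr (k := k) B)) :=
  MorphismProperty.pullback_fst _ _ inferInstance

/-- The preimage of an affine open is affine. -/
lemma isAffineOpen_preU {U : C.Opens} (hU : IsAffineOpen U) : IsAffineOpen (preU c B U) :=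
  hU.preimage (pullback.fst c (specStr B))

/-- Constants from the base as sections. -/
def secB (U : C.Opens) : B →+* Γ(pullback c (specStr (k := k) B), preU c B U) :=
  ((Scheme.ΓSpecIso (CommRingCat.of B)).inv ≫
    (pullback.snd c (specStr B)).appLE ⊤ (preU c B U) le_top).hom

/-- Functions on the curve, pulled back to the base change. -/
def secC (U : C.Opens) : Γ(C, U) →+* Γ(pullback c (specStr (k := k) B), preU c B U) :=
  ((pullback.fst c (specStr B)).app U).hom

/-- Constants from the base restrict to constants. -/
lemma secB_res {U V : C.Opens} (h : V ≤ U) (b : B) :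
    (pullback c (specStr (k := k) B)).presheaf.map
      (homOfLE ((pullback.fst c (specStr B)).preimage_mono h)).op (secB c B U b) =
      secB c B V b := by
  simp only [secB, CommRingCat.hom_comp, RingHom.coe_comp, Function.comp_apply]
  exact congr($((pullback.snd c (specStr B)).appLE_map (U := ⊤) (V := preU c B U)
    (V' := preU c B V) le_top (homOfLE ((pullback.fst c (specStr B)).preimage_mono h)).op) _)

/-- Functions on the curve pull back compatibly with restriction. -/
lemma secC_res {U V : C.Opens} (h : V ≤ U) (a : Γ(C, U)) :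
    (pullback c (specStr (k := k) B)).presheaf.map
      (homOfLE ((pullback.fst c (specStr B)).preimage_mono h)).op (secC c B U a) =
      secC c B V (C.presheaf.map (homOfLE h).op a) :=
  (congr($((pullback.fst c (specStr B)).naturality (homOfLE h).op) a)).symm

/-- The functions on the preimage of an affine open form a pushout of rings. -/
lemma isPushout_sections {U : C.Opens} (hU : IsAffineOpen U) :
    IsPushout (CommRingCat.ofHom (algebraMap k B)) (CommRingCat.ofHom (cst c U))
      (CommRingCat.ofHom (secB c B U)) (CommRingCat.ofHom (secC c B U)) := by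
  have H := (isIso_pushoutSection_iff (IsPullback.of_hasPullback c (specStr B))
    (US := ⊤) (UT := ⊤) (UX := U) (UY := preU c B U) le_top le_top (by simp)).mp
    (isIso_pushoutSection_of_isAffineOpen _ _ _ _ (isAffineOpen_top _) (isAffineOpen_top _) hU)
  refine H.flip.of_iso (Scheme.ΓSpecIso (CommRingCat.of k))
    (Scheme.ΓSpecIso (CommRingCat.of B)) (Iso.refl _) (Iso.refl _) ?_ ?_ ?_ ?_
  · rw [← Scheme.ΓSpecIso_naturality]
    simp [Scheme.Hom.appLE]
  · rw [Iso.refl_hom, Category.comp_id, cst, CommRingCat.ofHom_hom, Iso.hom_inv_id_assoc]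
  · rw [Iso.refl_hom, Category.comp_id, secB, CommRingCat.ofHom_hom, Iso.hom_inv_id_assoc]
  · simp [secC, Scheme.Hom.app_eq_appLE]

variable {U : C.Opens} (hU : IsAffineOpen U) {A : Type u} [CommRing A] [Algebra k A]
  (e : A ≃+* Γ(C, U)) (he : ∀ a : k, e (algebraMap k A a) = cst c U a)

include hU he in
/-- The functions on the preimage form a pushout of `B` and the chart ring. -/
lemma isPushout_tensor :
    IsPushout (CommRingCat.ofHom (algebraMap k B)) (CommRingCat.ofHom (algebraMap k A))
      (CommRingCat.ofHom (secB c B U))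
      (CommRingCat.ofHom ((secC c B U).comp e.toRingHom)) := by
  refine (isPushout_sections c B hU).of_iso (Iso.refl _) (Iso.refl _)
    e.symm.toCommRingCatIso (Iso.refl _) (by simp) ?_ (by simp) ?_
  · ext a
    exact e.injective (by simp [he])
  · ext a
    simp

/-- Functions on the preimage of an affine open are the tensor product. -/
def tensorSecEquiv : B ⊗[k] A ≃+* Γ(pullback c (specStr (k := k) B), preU c B U) :=
  ((CommRingCat.isPushout_tensorProduct k B A).isoIsPushout _ _
    (isPushout_tensor c B hU e he)).commRingCatIsoToRingEquiv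

/-- A pure tensor is the product of a constant and a function. -/
lemma tensorSecEquiv_tmul (b : B) (a : A) :
    tensorSecEquiv c B hU e he (b ⊗ₜ a) = secB c B U b * secC c B U (e a) := by
  rw [show b ⊗ₜ[k] a = (b ⊗ₜ[k] (1 : A)) * ((1 : B) ⊗ₜ[k] a) by simp, map_mul]
  congr 1
  · have h := IsPushout.inl_isoIsPushout_hom _ _ (CommRingCat.isPushout_tensorProduct k B A)
      (isPushout_tensor c B hU e he)
    exact congr($(h).hom b)
  · have h := IsPushout.inr_isoIsPushout_hom _ _ (CommRingCat.isPushout_tensorProduct k B A)
      (isPushout_tensor c B hU e he)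
    exact congr($(h).hom a)

/-- Restriction of the tensor presentation. -/
lemma tensorSecEquiv_res {V : C.Opens} (hV : IsAffineOpen V) (h : V ≤ U) {A' : Type u}
    [CommRing A'] [Algebra k A'] (e' : A' ≃+* Γ(C, V))
    (he' : ∀ a : k, e' (algebraMap k A' a) = cst c V a) (r : A →ₐ[k] A')
    (hr : ∀ a, e' (r a) = C.presheaf.map (homOfLE h).op (e a)) (z : B ⊗[k] A) :
    tensorSecEquiv c B hV e' he' (Algebra.TensorProduct.map (AlgHom.id B B) r z) =
      (pullback c (specStr (k := k) B)).presheaf.map
        (homOfLE ((pullback.fst c (specStr B)).preimage_mono h)).op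
        (tensorSecEquiv c B hU e he z) := by
  induction z using TensorProduct.induction_on with
  | zero => simp
  | add z w hz hw => simp only [map_add, hz, hw]
  | tmul b a =>
    rw [Algebra.TensorProduct.map_tmul, tensorSecEquiv_tmul, tensorSecEquiv_tmul, map_mul,
      secB_res c B h, secC_res c B h, hr]
    rfl

variable {B} {B' : Type u} [CommRing B'] [Algebra k B']

/-- The map of affine bases of a map of algebras. -/
def specHom (φ : B →ₐ[k] B') : SchemeHomOver (specStr (k := k) B') (specStr (k := k) B) :=
  ⟨Spec.map (CommRingCat.ofHom φ.toRingHom), by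
    rw [← Spec.map_comp, ← CommRingCat.ofHom_comp]
    exact congrArg (fun r ↦ Spec.map (CommRingCat.ofHom r)) φ.comp_algebraMap⟩

/-- Every map of affine bases comes from a map of algebras. -/
theorem exists_specHom (ψ : SchemeHomOver (specStr (k := k) B') (specStr (k := k) B)) :
    ∃ φ : B →ₐ[k] B', ψ = specHom φ := by
  have h : CommRingCat.ofHom (algebraMap k B) ≫ Spec.preimage ψ.1 =
      CommRingCat.ofHom (algebraMap k B') := by
    apply Spec.map_injective
    rw [Spec.map_comp, Spec.map_preimage]
    exact ψ.2
  refine ⟨{ (Spec.preimage ψ.1).hom with commutes' := fun r ↦ congr($(h).hom r) },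
    Subtype.ext ?_⟩
  change ψ.1 = Spec.map (CommRingCat.ofHom (Spec.preimage ψ.1).hom)
  rw [CommRingCat.ofHom_hom, Spec.map_preimage]

/-- Base change respects the projection to the curve. -/
lemma baseChangeSnd_fst {T T' : Scheme.{u}} {t : T ⟶ Spec (CommRingCat.of k)}
    {t' : T' ⟶ Spec (CommRingCat.of k)} (s : SchemeHomOver t' t) :
    baseChangeSnd c s ≫ pullback.fst c t = pullback.fst c t' :=
  (pullback.lift_fst _ _ _).trans (Category.comp_id _)

/-- Base change lies over the map of bases. -/
lemma baseChangeSnd_snd {T T' : Scheme.{u}} {t : T ⟶ Spec (CommRingCat.of k)}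
    {t' : T' ⟶ Spec (CommRingCat.of k)} (s : SchemeHomOver t' t) :
    baseChangeSnd c s ≫ pullback.snd c t = pullback.snd c t' ≫ s.1 :=
  pullback.lift_snd _ _ _

/-- Base change pulls preimages of opens back to preimages. -/
lemma preimage_baseChangeSnd (φ : B →ₐ[k] B') (U : C.Opens) :
    baseChangeSnd c (specHom φ) ⁻¹ᵁ preU c B U = preU c B' U := by
  rw [preU, preU, ← Scheme.Hom.comp_preimage, baseChangeSnd_fst]

/-- Base change of the tensor presentation. -/
lemma tensorSecEquiv_bc (φ : B →ₐ[k] B') (z : B ⊗[k] A) :
    (baseChangeSnd c (specHom φ)).appLE (preU c B U) (preU c B' U)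
        (preimage_baseChangeSnd c φ U).ge (tensorSecEquiv c B hU e he z) =
      tensorSecEquiv c B' hU e he (Algebra.TensorProduct.map φ (AlgHom.id k A) z) := by
  induction z using TensorProduct.induction_on with
  | zero => simp
  | add z w hz hw => simp only [map_add, hz, hw]
  | tmul b a =>
    rw [Algebra.TensorProduct.map_tmul, tensorSecEquiv_tmul, tensorSecEquiv_tmul, map_mul,
      AlgHom.id_apply]
    congr 1
    · simp only [secB, CommRingCat.hom_comp, RingHom.coe_comp, Function.comp_apply]
      rw [← CommRingCat.comp_apply, Scheme.Hom.appLE_comp_appLE]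
      simp only [baseChangeSnd_snd]
      rw [← Scheme.Hom.appLE_comp_appLE (pullback.snd c (specStr B')) (specHom φ).1 ⊤ ⊤
        (preU c B' U) (fun _ _ ↦ trivial) le_top, CommRingCat.comp_apply]
      congr 1
      have h := congr($(Scheme.ΓSpecIso_inv_naturality (CommRingCat.ofHom φ.toRingHom)).hom b)
      simp only [CommRingCat.hom_comp, RingHom.coe_comp, Function.comp_apply,
        CommRingCat.hom_ofHom] at h
      refine Eq.trans ?_ h.symm
      rw [show (specHom φ).1.appLE ⊤ ⊤ (fun _ _ ↦ trivial) = (specHom φ).1.appTop from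
        Scheme.Hom.appLE_eq_app _]
      rfl
    · simp only [secC, Scheme.Hom.app_eq_appLE]
      rw [← CommRingCat.comp_apply, Scheme.Hom.appLE_comp_appLE]
      simp only [baseChangeSnd_fst]

/-! ## The charts of a model over an affine base -/

namespace CurveModel

variable {c} {ε : SchemeHomOver (𝟙 (Spec (CommRingCat.of k))) c} (M : CurveModel c ε) (B)

/-- The first chart over `B`. -/
abbrev W0 : (pullback c (specStr (k := k) B)).Opens := preU c B M.U0

/-- The second chart over `B`. -/
abbrev W1 : (pullback c (specStr (k := k) B)).Opens := preU c B M.U1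

/-- The overlap over `B`. -/
abbrev W01 : (pullback c (specStr (k := k) B)).Opens := preU c B (M.U0 ⊓ M.U1)

/-- The two charts cover the curve over `B`. -/
lemma W0_sup_W1 : M.W0 B ⊔ M.W1 B = ⊤ := by
  rw [W0, W1, preU, preU, ← Scheme.Hom.preimage_sup, M.cover]
  rfl

/-- The overlap of the charts is affine. -/
lemma isAffineOpen_inf : IsAffineOpen (M.U0 ⊓ M.U1) := M.inf_eq0 ▸ M.hU0.basicOpen _

/-- The first chart over `B` is affine. -/
lemma isAffineOpen_W0 : IsAffineOpen (M.W0 B) := isAffineOpen_preU c B M.hU0

/-- The second chart over `B` is affine. -/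
lemma isAffineOpen_W1 : IsAffineOpen (M.W1 B) := isAffineOpen_preU c B M.hU1

/-- The overlap over `B` is affine. -/
lemma isAffineOpen_W01 : IsAffineOpen (M.W01 B) := isAffineOpen_preU c B M.isAffineOpen_inf

/-- The overlap lies in the first chart. -/
lemma W01_le_W0 : M.W01 B ≤ M.W0 B := (pullback.fst c (specStr B)).preimage_mono inf_le_left

/-- The overlap lies in the second chart. -/
lemma W01_le_W1 : M.W01 B ≤ M.W1 B := (pullback.fst c (specStr B)).preimage_mono inf_le_right

/-- Functions on the first chart over `B` are `B ⊗ A0`. -/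
def iso0 : M.G.R0 B ≃+* Γ(pullback c (specStr (k := k) B), M.W0 B) :=
  tensorSecEquiv c B M.hU0 M.e0 M.e0_algebraMap

/-- Functions on the second chart over `B` are `B ⊗ A1`. -/
def iso1 : M.G.R1 B ≃+* Γ(pullback c (specStr (k := k) B), M.W1 B) :=
  tensorSecEquiv c B M.hU1 M.e1 M.e1_algebraMap

/-- Functions on the overlap over `B` are `B ⊗ A01`. -/
def iso01 : M.G.R01 B ≃+* Γ(pullback c (specStr (k := k) B), M.W01 B) :=
  tensorSecEquiv c B M.isAffineOpen_inf M.e01 M.e01_algebraMap

/-- A function on the first chart over `B` given by a pure tensor. -/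
lemma iso0_tmul (b : B) (a : M.G.A0) :
    M.iso0 B (b ⊗ₜ a) = secB c B M.U0 b * secC c B M.U0 (M.e0 a) :=
  tensorSecEquiv_tmul ..

/-- A function on the second chart over `B` given by a pure tensor. -/
lemma iso1_tmul (b : B) (a : M.G.A1) :
    M.iso1 B (b ⊗ₜ a) = secB c B M.U1 b * secC c B M.U1 (M.e1 a) :=
  tensorSecEquiv_tmul ..

/-- The algebraic restriction from the first chart is the restriction of sections. -/
lemma iso01_ρ0 (z : M.G.R0 B) :
    M.iso01 B (M.G.ρ0 B z) = (pullback c (specStr (k := k) B)).presheaf.map
      (homOfLE (M.W01_le_W0 B)).op (M.iso0 B z) :=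
  tensorSecEquiv_res c B M.hU0 M.e0 M.e0_algebraMap M.isAffineOpen_inf inf_le_left M.e01
    M.e01_algebraMap M.G.res0 M.e01_res0 z

/-- The algebraic restriction from the second chart is the restriction of sections. -/
lemma iso01_ρ1 (z : M.G.R1 B) :
    M.iso01 B (M.G.ρ1 B z) = (pullback c (specStr (k := k) B)).presheaf.map
      (homOfLE (M.W01_le_W1 B)).op (M.iso1 B z) :=
  tensorSecEquiv_res c B M.hU1 M.e1 M.e1_algebraMap M.isAffineOpen_inf inf_le_right M.e01
    M.e01_algebraMap M.G.res1 M.e01_res1 z

/-- The coordinate over `B` is the pulled back coordinate. -/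
lemma iso0_X0 : M.iso0 B (M.G.X0 B) = secC c B M.U0 (M.e0 M.G.x) := by
  rw [CurveCharts.X0, iso0_tmul, map_one, one_mul]

/-- The inverse coordinate over `B` is the pulled back inverse coordinate. -/
lemma iso1_Y1 : M.iso1 B (M.G.Y1 B) = secC c B M.U1 (M.e1 M.G.y) := by
  rw [CurveCharts.Y1, iso1_tmul, map_one, one_mul]

/-- The overlap is where the coordinate is invertible on the first chart. -/
lemma W01_eq_basicOpen_X0 :
    M.W01 B = (pullback c (specStr (k := k) B)).basicOpen (M.iso0 B (M.G.X0 B)) := by
  rw [iso0_X0, W01, preU, M.inf_eq0]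
  exact Scheme.preimage_basicOpen (pullback.fst c (specStr B)) (M.e0 M.G.x)

/-- The overlap is where the inverse coordinate is invertible on the second chart. -/
lemma W01_eq_basicOpen_Y1 :
    M.W01 B = (pullback c (specStr (k := k) B)).basicOpen (M.iso1 B (M.G.Y1 B)) := by
  rw [iso1_Y1, W01, preU, M.inf_eq1]
  exact Scheme.preimage_basicOpen (pullback.fst c (specStr B)) (M.e1 M.G.y)

variable {B}

/-- Base change pulls the first chart back to the first chart. -/
lemma preimage_W0 (φ : B →ₐ[k] B') :
    baseChangeSnd c (specHom φ) ⁻¹ᵁ M.W0 B = M.W0 B' := preimage_baseChangeSnd c φ _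

/-- Base change pulls the second chart back to the second chart. -/
lemma preimage_W1 (φ : B →ₐ[k] B') :
    baseChangeSnd c (specHom φ) ⁻¹ᵁ M.W1 B = M.W1 B' := preimage_baseChangeSnd c φ _

/-- Base change pulls the overlap back to the overlap. -/
lemma preimage_W01 (φ : B →ₐ[k] B') :
    baseChangeSnd c (specHom φ) ⁻¹ᵁ M.W01 B = M.W01 B' := preimage_baseChangeSnd c φ _

/-- Algebraic and geometric base change agree on the first chart. -/
lemma iso0_bc0 (φ : B →ₐ[k] B') (z : M.G.R0 B) :
    (baseChangeSnd c (specHom φ)).appLE (M.W0 B) (M.W0 B') (M.preimage_W0 φ).ge (M.iso0 B z) =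
      M.iso0 B' (M.G.bc0 φ z) :=
  tensorSecEquiv_bc c M.hU0 M.e0 M.e0_algebraMap φ z

/-- Algebraic and geometric base change agree on the second chart. -/
lemma iso1_bc1 (φ : B →ₐ[k] B') (z : M.G.R1 B) :
    (baseChangeSnd c (specHom φ)).appLE (M.W1 B) (M.W1 B') (M.preimage_W1 φ).ge (M.iso1 B z) =
      M.iso1 B' (M.G.bc1 φ z) :=
  tensorSecEquiv_bc c M.hU1 M.e1 M.e1_algebraMap φ z

/-- Algebraic and geometric base change agree on the overlap. -/
lemma iso01_bc01 (φ : B →ₐ[k] B') (z : M.G.R01 B) :
    (baseChangeSnd c (specHom φ)).appLE (M.W01 B) (M.W01 B') (M.preimage_W01 φ).ge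
        (M.iso01 B z) =
      M.iso01 B' (M.G.bc01 φ z) :=
  tensorSecEquiv_bc c M.isAffineOpen_inf M.e01 M.e01_algebraMap φ z

variable (B)

/-- The base point section lands in the second chart. -/
lemma rigSection_preimage_W1 : rigSection c (specStr B) ε ⁻¹ᵁ M.W1 B = ⊤ := by
  rw [W1, preU, ← Scheme.Hom.comp_preimage, rigSection, pullback.lift_fst,
    Scheme.Hom.comp_preimage, M.ε_mem]
  rfl

/-- The section corresponds to evaluation at the base point. -/
lemma rigSection_iso1 (z : M.G.R1 B) :
    (rigSection c (specStr B) ε).appLE (M.W1 B) ⊤ (M.rigSection_preimage_W1 B).ge (M.iso1 B z) =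
      (Scheme.ΓSpecIso (CommRingCat.of B)).inv (M.G.εB B z) := by
  induction z using TensorProduct.induction_on with
  | zero => simp
  | add z w hz hw => simp only [map_add, hz, hw]
  | tmul b a =>
    rw [iso1_tmul, map_mul]
    have hb : (rigSection c (specStr B) ε).appLE (M.W1 B) ⊤ (M.rigSection_preimage_W1 B).ge
        (secB c B M.U1 b) = (Scheme.ΓSpecIso (CommRingCat.of B)).inv b := by
      simp only [secB, CommRingCat.hom_comp, RingHom.coe_comp, Function.comp_apply]
      rw [← CommRingCat.comp_apply, Scheme.Hom.appLE_comp_appLE]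
      simp only [rigSection, pullback.lift_snd]
      simp [Scheme.Hom.appLE]
    have ha : (rigSection c (specStr B) ε).appLE (M.W1 B) ⊤ (M.rigSection_preimage_W1 B).ge
        (secC c B M.U1 (M.e1 a)) =
          (Scheme.ΓSpecIso (CommRingCat.of B)).inv (algebraMap k B (M.G.ε a)) := by
      simp only [secC, Scheme.Hom.app_eq_appLE]
      rw [← CommRingCat.comp_apply, Scheme.Hom.appLE_comp_appLE]
      simp only [rigSection, pullback.lift_fst]
      rw [← Scheme.Hom.appLE_comp_appLE (specStr B) ε.1 M.U1 ⊤ ⊤ M.ε_mem.ge
        (fun _ _ ↦ trivial), CommRingCat.comp_apply, M.ε_eval,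
        show (specStr (k := k) B).appLE ⊤ ⊤ (fun _ _ ↦ trivial) = (specStr B).appTop from
          Scheme.Hom.appLE_eq_app _]
      exact (congr($(Scheme.ΓSpecIso_inv_naturality (CommRingCat.ofHom (algebraMap k B))).hom
        (M.G.ε a))).symm
    rw [hb, ha, ← map_mul]
    congr 1

end CurveModel

end

end Fermat.PIC
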