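import Fermat.Agent.PIC.Curve.Points

/-!
# The chart of a rational function

The locus where a transcendental rational function is regular maps finitely onto the line.
-/

set_option autoImplicit false

universe u

open CategoryTheory AlgebraicGeometry TopologicalSpace Polynomial

namespace Fermat.PIC

noncomputable section

variable {k : Type u} [Field k] {C : Scheme.{u}} (c : C ⟶ Spec (CommRingCat.of k))
variable [IsIntegral C] (t : C.functionField)

/-- A rational function as a section over the locus where it is regular. -/
def regularSection : Γ(C, regularOpen t) := (exists_section (le_refl (regularOpen t))).choose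

/-- The germ of `regularSection t` at the generic point is `t`. -/
lemma germ_regularSection :
    C.germToFunctionField (regularOpen t) (regularSection t) = t :=
  (exists_section (le_refl (regularOpen t))).choose_spec

/-- The polynomials in a rational function. -/
def evalSection : k[X] →+* Γ(C, regularOpen t) :=
  Polynomial.eval₂RingHom (cst c (regularOpen t)) (regularSection t)

/-- A rational function as a map to the line. -/
def toLine : (regularOpen t : C.Opens).toScheme ⟶ Spec (CommRingCat.of k[X]) :=
  (regularOpen t).toSpecΓ ≫ Spec.map (CommRingCat.ofHom (evalSection c t))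

/-- An open inclusion maps sections over the open to global sections of the open subscheme. -/
lemma ι_appLE_top {X : Scheme.{u}} (U : X.Opens) (e : ⊤ ≤ U.ι ⁻¹ᵁ U) :
    U.ι.appLE U ⊤ e = U.topIso.inv := by
  rw [Scheme.Opens.ι_appLE]
  exact congrArg X.presheaf.map (Subsingleton.elim _ _)

/-- `appLE` between the whole spaces is the map on global sections. -/
lemma appLE_top_top {X Y : Scheme.{u}} (f : X ⟶ Y) (e : ⊤ ≤ f ⁻¹ᵁ ⊤) :
    f.appLE ⊤ ⊤ e = f.appTop :=
  Scheme.Hom.appLE_eq_app f

/-- The line map lies over the ground field. -/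
lemma toLine_SpecMap_C :
    toLine c t ≫ Spec.map (CommRingCat.ofHom (Polynomial.C (R := k))) =
      (regularOpen t).ι ≫ c := by
  have : (evalSection c t).comp Polynomial.C = cst c (regularOpen t) := by
    ext a; simp [evalSection]
  rw [toLine, Category.assoc, ← Spec.map_comp, ← CommRingCat.ofHom_comp, this]
  apply ext_of_isAffine
  rw [Scheme.Hom.comp_appTop, Scheme.Opens.toSpecΓ_appTop, Scheme.ΓSpecIso_naturality_assoc, cst,
    CommRingCat.ofHom_hom]
  simp only [Category.assoc, Iso.hom_inv_id_assoc, Scheme.Hom.comp_appTop,
    Scheme.Opens.ι_appTop, Scheme.Hom.appTop, Scheme.Hom.appLE, Scheme.Opens.topIso,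
    Functor.mapIso_inv, Iso.op_inv, eqToIso.inv, eqToHom_op]
  erw [← C.presheaf.map_comp]
  rfl

/-- The line map pulls the coordinate back to the rational function. -/
lemma toLine_appTop_X :
    (toLine c t).appTop ((Scheme.ΓSpecIso (CommRingCat.of k[X])).inv X) =
      (regularOpen t).topIso.inv (regularSection t) := by
  rw [toLine, Scheme.Hom.comp_appTop, Scheme.Opens.toSpecΓ_appTop,
    Scheme.ΓSpecIso_naturality_assoc]
  simp [evalSection, CommRingCat.hom_comp]

/-- Restricted to a common domain, a function and its inverse multiply to one. -/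
lemma appLE_regularSection_mul {P : Scheme.{u}} (p : P ⟶ C) (ht : t ≠ 0)
    (h₀ : ⊤ ≤ p ⁻¹ᵁ regularOpen t) (h₁ : ⊤ ≤ p ⁻¹ᵁ regularOpen t⁻¹) :
    p.appLE (regularOpen t) ⊤ h₀ (regularSection t) *
      p.appLE (regularOpen t⁻¹) ⊤ h₁ (regularSection t⁻¹) = 1 := by
  have : Nonempty (regularOpen t ⊓ regularOpen t⁻¹ : C.Opens) :=
    ⟨⟨genericPoint C, genericPoint_mem _, genericPoint_mem _⟩⟩
  have e : C.presheaf.map (homOfLE (inf_le_left : regularOpen t ⊓ regularOpen t⁻¹ ≤ _)).op
      (regularSection t) *
      C.presheaf.map (homOfLE (inf_le_right : regularOpen t ⊓ regularOpen t⁻¹ ≤ _)).op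
      (regularSection t⁻¹) = 1 := by
    apply C.germToFunctionField_injective (regularOpen t ⊓ regularOpen t⁻¹)
    refine (map_mul _ _ _).trans ?_
    rw [map_one]
    refine (congrArg₂ (· * ·) ((C.presheaf.germ_res_apply _ _ _ _).trans (germ_regularSection t))
      ((C.presheaf.germ_res_apply _ _ _ _).trans (germ_regularSection t⁻¹))).trans ?_
    exact mul_inv_cancel₀ ht
  have h : ⊤ ≤ p ⁻¹ᵁ (regularOpen t ⊓ regularOpen t⁻¹) := fun q hq ↦ ⟨h₀ hq, h₁ hq⟩
  rw [← p.map_appLE h (homOfLE inf_le_left).op, ← p.map_appLE h (homOfLE inf_le_right).op,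
    CommRingCat.comp_apply, CommRingCat.comp_apply, ← map_mul, e, map_one]

variable [IsProper c] [SmoothOfRelativeDimension 1 c] [IsAlgClosed k]

/-- The valuative criterion for the line map. -/
theorem existence_toLine (ht : t ≠ 0) : ValuativeCriterion.Existence (toLine c t) := by
  intro S
  let alg : Spec (CommRingCat.of S.K) ⟶ Spec (CommRingCat.of S.R) :=
    Spec.map (CommRingCat.ofHom (algebraMap S.R S.K))
  have hcex : ValuativeCriterion.Existence c := by
    have h : UniversallyClosed c := inferInstance
    rw [UniversallyClosed.eq_valuativeCriterion] at h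
    exact h.1
  have hsq : CommSq (S.i₁ ≫ (regularOpen t).ι) alg c
      (S.i₂ ≫ Spec.map (CommRingCat.ofHom (Polynomial.C (R := k)))) :=
    ⟨by rw [Category.assoc, ← toLine_SpecMap_C c t, ← Category.assoc, S.commSq.w,
      Category.assoc]⟩
  obtain ⟨⟨l, hl₁, hl₂⟩⟩ := (hcex ⟨S.R, S.K, _, _, hsq⟩).exists_lift
  change alg ≫ l = S.i₁ ≫ (regularOpen t).ι at hl₁
  set z := IsLocalRing.closedPoint S.R
  have hinj : Function.Injective alg.appTop := by
    have e : alg.appTop = (Scheme.ΓSpecIso (CommRingCat.of S.R)).hom ≫
        CommRingCat.ofHom (algebraMap S.R S.K) ≫ (Scheme.ΓSpecIso (CommRingCat.of S.K)).inv := by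
      rw [← Scheme.ΓSpecIso_naturality_assoc, Iso.hom_inv_id, Category.comp_id]
    rw [e]
    exact ((Scheme.ΓSpecIso _).commRingCatIsoToRingEquiv.symm.injective.comp
      (IsFractionRing.injective S.R S.K)).comp
      (Scheme.ΓSpecIso (CommRingCat.of S.R)).commRingCatIsoToRingEquiv.injective
  have hz : l z ∈ regularOpen t := by
    have hcov := regularOpen_sup_inv (fun w ↦ valuationRing_stalk c w) t
    rcases (hcov.ge (show l z ∈ (⊤ : C.Opens) from trivial) :
      l z ∈ regularOpen t ⊔ regularOpen t⁻¹) with h | h
    · exact h
    have h₁ : ⊤ ≤ l ⁻¹ᵁ regularOpen t⁻¹ := ((IsLocalRing.closedPoint_mem_iff _).1 h).ge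
    have h₀ : ⊤ ≤ (alg ≫ l) ⁻¹ᵁ regularOpen t := fun q _ ↦ by
      change (alg ≫ l) q ∈ regularOpen t
      rw [hl₁]
      exact (S.i₁ q).2
    -- at the closed point `t⁻¹` has the inverse `X`, so `t` is regular there too
    set a := S.i₂.appTop ((Scheme.ΓSpecIso (CommRingCat.of k[X])).inv X)
    set b := l.appLE (regularOpen t⁻¹) ⊤ h₁ (regularSection t⁻¹) with hb
    have hab : a * b = 1 := by
      apply hinj
      rw [map_mul, map_one]
      have e₁ : alg.appTop b = (alg ≫ l).appLE (regularOpen t⁻¹) ⊤
          (fun q _ ↦ h₁ (trivial : alg q ∈ (⊤ : (Spec (CommRingCat.of S.R)).Opens)))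
          (regularSection t⁻¹) := by
        rw [hb, ← Scheme.Hom.appLE_comp_appLE alg l (regularOpen t⁻¹) ⊤ ⊤ h₁ alg.preimage_top.ge]
        rw [appLE_top_top]
        rfl
      have e₂ : alg.appTop a = (alg ≫ l).appLE (regularOpen t) ⊤ h₀ (regularSection t) := by
        calc alg.appTop a = (alg ≫ S.i₂).appTop ((Scheme.ΓSpecIso (CommRingCat.of k[X])).inv X) :=
              rfl
          _ = (S.i₁ ≫ toLine c t).appTop ((Scheme.ΓSpecIso (CommRingCat.of k[X])).inv X) := by
              rw [S.commSq.w]
          _ = S.i₁.appTop ((regularOpen t).topIso.inv (regularSection t)) := by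
              rw [← toLine_appTop_X c t]; rfl
          _ = (S.i₁ ≫ (regularOpen t).ι).appLE (regularOpen t) ⊤
                (fun q _ ↦ (S.i₁ q).2) (regularSection t) := by
              rw [← Scheme.Hom.appLE_comp_appLE S.i₁ (regularOpen t).ι (regularOpen t) ⊤ ⊤
                (regularOpen t).ι_preimage_self.ge S.i₁.preimage_top.ge]
              rw [ι_appLE_top, appLE_top_top]
              rfl
          _ = _ := by simp only [hl₁]
      rw [e₁, e₂]
      exact appLE_regularSection_mul t (alg ≫ l) ht _ _
    have hu : IsUnit b := IsUnit.of_mul_eq_one _ (by rwa [mul_comm])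
    have hbo := Scheme.basicOpen_of_isUnit _ hu
    rw [hb, Scheme.basicOpen_appLE] at hbo
    have hz' : z ∈ l ⁻¹ᵁ C.basicOpen (regularSection t⁻¹) :=
      ((hbo.ge (show z ∈ (⊤ : (Spec (CommRingCat.of S.R)).Opens) from trivial)) : z ∈ _ ⊓ _).2
    rw [← regularOpen_inf_inv (inv_ne_zero ht) (regularSection t⁻¹) (germ_regularSection _),
      inv_inv] at hz'
    exact hz'.2
  have hrange : Set.range l ⊆ Set.range (regularOpen t).ι := by
    rw [Scheme.Opens.range_ι]
    rintro _ ⟨q, rfl⟩
    exact ((IsLocalRing.specializes_closedPoint (R := S.R) q).map l.continuous).mem_open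
      (regularOpen t).isOpen hz
  refine ⟨⟨⟨IsOpenImmersion.lift (regularOpen t).ι l hrange, ?_, ?_⟩⟩⟩
  · rw [← cancel_mono (regularOpen t).ι, Category.assoc, IsOpenImmersion.lift_fac]
    exact hl₁
  · have : IsDominant alg := ⟨(PrimeSpectrum.denseRange_comap_iff_ker_le_nilRadical _).mpr (by
      rw [CommRingCat.hom_ofHom, (RingHom.injective_iff_ker_eq_bot _).mp
        (IsFractionRing.injective S.R S.K)]
      exact bot_le)⟩
    refine ext_of_isDominant alg ?_
    rw [← Category.assoc]
    have : alg ≫ IsOpenImmersion.lift (regularOpen t).ι l hrange = S.i₁ := by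
      rw [← cancel_mono (regularOpen t).ι, Category.assoc, IsOpenImmersion.lift_fac, hl₁]
    rw [this]
    exact S.commSq.w

/-- The line map of a transcendental function is finite. -/
theorem isFinite_toLine (htr : Function.Injective (evalSection c t)) : IsFinite (toLine c t) := by
  have ht : t ≠ 0 := by
    intro h0
    apply Polynomial.X_ne_zero (R := k)
    apply htr
    rw [map_zero]
    apply C.germToFunctionField_injective (regularOpen t)
    rw [map_zero]
    simpa [evalSection, h0] using germ_regularSection t
  have : IsNoetherian C :=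
    { __ := LocallyOfFiniteType.isLocallyNoetherian c
      isCompact_univ := ((quasiCompact_iff_compactSpace c).mp inferInstance).isCompact_univ }
  have : CompactSpace (regularOpen t : C.Opens) :=
    isCompact_iff_compactSpace.mp (NoetherianSpace.isCompact _)
  have : LocallyOfFiniteType (toLine c t ≫
      Spec.map (CommRingCat.ofHom (Polynomial.C (R := k)))) := by
    rw [toLine_SpecMap_C]; infer_instance
  have : IsSeparated (toLine c t ≫ Spec.map (CommRingCat.ofHom (Polynomial.C (R := k)))) := by
    rw [toLine_SpecMap_C]; infer_instance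
  have : LocallyOfFiniteType (toLine c t) := locallyOfFiniteType_of_comp _
    (Spec.map (CommRingCat.ofHom (Polynomial.C (R := k))))
  have : IsSeparated (toLine c t) := IsSeparated.of_comp _
    (Spec.map (CommRingCat.ofHom (Polynomial.C (R := k))))
  have : QuasiCompact (toLine c t) := (quasiCompact_iff_compactSpace _).mpr inferInstance
  have : UniversallyClosed (toLine c t) :=
    UniversallyClosed.of_valuativeCriterion _ (existence_toLine c t ht)
  have : IsProper (toLine c t) := { }
  have : JacobsonSpace C := LocallyOfFiniteType.jacobsonSpace c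
  have : LocallyOfFiniteType (Spec.map (CommRingCat.ofHom (Polynomial.C (R := k)))) :=
    (HasRingHomProperty.Spec_iff (P := @LocallyOfFiniteType)).mpr
      (RingHom.finiteType_algebraMap.mpr (inferInstance : Algebra.FiniteType k k[X]))
  have : JacobsonSpace (Spec (CommRingCat.of k[X])) :=
    LocallyOfFiniteType.jacobsonSpace
      (Spec.map (CommRingCat.ofHom (Polynomial.C (R := k))) : Spec (CommRingCat.of k[X]) ⟶ _)
  -- the fibres are finite: only the generic point lies over the generic point
  have : LocallyQuasiFinite (toLine c t) := by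
    refine LocallyQuasiFinite.of_finite_preimage_singleton _ fun p ↦ ?_
    set U := regularOpen t
    let η : U.toScheme := ⟨genericPoint C, genericPoint_mem U⟩
    have hη : (toLine c t η).asIdeal = ⊥ := by
      have e : U.fromSpecStalkOfMem (genericPoint C) (genericPoint_mem U) ≫ toLine c t =
          Spec.map (CommRingCat.ofHom (evalSection c t) ≫
            C.presheaf.germ U (genericPoint C) (genericPoint_mem U)) := by
        rw [toLine, Scheme.Opens.fromSpecStalkOfMem_toSpecΓ_assoc, ← Spec.map_comp]
      let cp : Spec (C.presheaf.stalk (genericPoint C)) := IsLocalRing.closedPoint _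
      have e' : U.fromSpecStalkOfMem (genericPoint C) (genericPoint_mem U) cp = η := by
        apply U.ι.isOpenEmbedding.injective
        rw [← Scheme.Hom.comp_apply, Scheme.Opens.fromSpecStalkOfMem_ι,
          Scheme.fromSpecStalk_closedPoint]
        rfl
      rw [← e', ← Scheme.Hom.comp_apply, e]
      change (IsLocalRing.maximalIdeal C.functionField).comap _ = ⊥
      rw [IsLocalRing.maximalIdeal_eq_bot, ← RingHom.ker_eq_comap_bot,
        ← RingHom.injective_iff_ker_eq_bot]
      exact (C.germToFunctionField_injective U).comp htr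
    have hclosed : ∀ w : U.toScheme, w ≠ η → IsClosed ({toLine c t w} : Set _) := by
      intro w hw
      refine (toLine c t).closePoints_subset_preimage_closedPoints (?_ : IsClosed ({w} : Set _))
      have := (isClosed_singleton_of_ne c (z := w.1)
        fun h ↦ hw (Subtype.ext h)).preimage U.ι.continuous
      convert this
      ext v
      simp only [Set.mem_singleton_iff, Set.mem_preimage]
      exact ⟨fun h ↦ h ▸ rfl, fun h ↦ Subtype.ext h⟩
    by_cases hp : toLine c t η = p
    · refine (Set.finite_singleton η).subset fun w (hw : toLine c t w = p) ↦ ?_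
      by_contra hne
      have hcl := hclosed w hne
      rw [hw, ← hp] at hcl
      replace hcl := (PrimeSpectrum.isClosed_singleton_iff_isMaximal _).mp hcl
      rw [hη] at hcl
      exact Polynomial.not_isField k (Ring.isField_iff_maximal_bot.mpr hcl)
    · rcases (toLine c t ⁻¹' {p}).eq_empty_or_nonempty with h | ⟨w, hw⟩
      · rw [h]; exact Set.finite_empty
      have hwη : w ≠ η := fun h ↦ hp (h ▸ hw)
      have hpc : IsClosed ({p} : Set _) := (show toLine c t w = p from hw) ▸ hclosed w hwη
      set F := toLine c t ⁻¹' {p}
      have hF : IsClosed F := hpc.preimage (toLine c t).continuous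
      have hη' : genericPoint C ∉ closure (U.ι '' F) := by
        intro h
        have hηF : η ∈ closure F := by
          rw [U.ι.isOpenEmbedding.isInducing.closure_eq_preimage_closure_image]
          exact h
        rw [hF.closure_eq] at hηF
        exact hp hηF
      exact ((finite_of_isClosed c isClosed_closure hη').subset subset_closure).of_finite_image
        U.ι.isOpenEmbedding.injective.injOn
  exact IsFinite.of_isProper_of_locallyQuasiFinite _

/-- The chart of a transcendental rational function is affine. -/
theorem isAffineOpen_regularOpen (htr : Function.Injective (evalSection c t)) :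
    IsAffineOpen (regularOpen t) := by
  have := isFinite_toLine c t htr
  exact isAffine_of_isAffineHom (toLine c t)

/-- Functions on the chart are finite over polynomials. -/
theorem finite_evalSection (htr : Function.Injective (evalSection c t)) :
    (evalSection c t).Finite := by
  have h := isFinite_toLine c t htr
  have hU := isAffineOpen_regularOpen c t htr
  have : IsAffine (regularOpen t : C.Opens).toScheme := hU
  have : IsIso (regularOpen t).toSpecΓ := inferInstanceAs (IsIso hU.isoSpec.hom)
  have : (MorphismProperty.RespectsIso @IsFinite.{u}) :=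
    MorphismProperty.IsStableUnderBaseChange.respectsIso
  rw [toLine, MorphismProperty.cancel_left_of_respectsIso @IsFinite, IsFinite.SpecMap_iff] at h
  exact h

end

end Fermat.PIC
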