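import Fermat.Agent.PIC.Curve.Chart

/-!
# Every pointed smooth proper curve has a two-chart model

`nonempty_curveModel`, the first input of S25: everything else in `PIC` works on the two charts of
such a model.
-/

set_option autoImplicit false

universe u

open CategoryTheory AlgebraicGeometry Polynomial NeronModelInfra

namespace Fermat.PIC

noncomputable section

variable {k : Type u} [Field k] {C : Scheme.{u}} (c : C ⟶ Spec (CommRingCat.of k))
variable [IsIntegral C]

/-- The constant rational functions. -/
def cstK : k →+* C.functionField :=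
  (C.germToFunctionField ⊤).hom.comp (cst c ⊤)

/-- The germ of a constant section is the constant rational function. -/
lemma germ_cst (U : C.Opens) [Nonempty U] (a : k) :
    C.germToFunctionField U (cst c U a) = cstK c a :=
  germToFunctionField_cst c U a

variable [IsAlgClosed k]

/-- A nonconstant rational function is transcendental. -/
theorem evalSection_injective {t : C.functionField} (h : ∀ a, cstK c a ≠ t) :
    Function.Injective (evalSection c t) := by
  let := (cst c (regularOpen t)).toAlgebra
  rw [injective_iff_map_eq_zero]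
  intro q hq
  by_contra hq0
  set s := regularSection t
  have hint : IsIntegral k s := (show IsAlgebraic k s from ⟨q, hq0, hq⟩).isIntegral
  have hdeg : (minpoly k s).natDegree = 1 := by
    have := IsAlgClosed.degree_eq_one_of_irreducible k (minpoly.irreducible hint)
    exact natDegree_eq_of_degree_eq_some this
  obtain ⟨a, ha⟩ := minpoly.natDegree_eq_one_iff.mp hdeg
  exact h a (((germ_cst c (regularOpen t) a).symm.trans (congrArg _ ha)).trans
    (germ_regularSection t))

/-- Functions on the chart of a nonconstant function do not form a field. -/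
theorem not_isField_section [LocallyOfFiniteType c] {t : C.functionField}
    (h : ∀ a, cstK c a ≠ t) (hU : IsAffineOpen (regularOpen t)) :
    ¬ IsField Γ(C, regularOpen t) := by
  intro hF
  let := (cst c (regularOpen t)).toAlgebra
  have : Algebra.FiniteType k Γ(C, regularOpen t) := finiteType_cst c hU
  have : (⊥ : Ideal Γ(C, regularOpen t)).IsMaximal := Ring.isField_iff_maximal_bot.mp hF
  obtain ⟨φ, hφ⟩ := exists_point_of_isMaximal (k := k) (⊥ : Ideal Γ(C, regularOpen t))
  have : algebraMap k _ (φ (regularSection t)) - regularSection t ∈ RingHom.ker φ := by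
    simp [RingHom.mem_ker]
  rw [hφ, Ideal.mem_bot, sub_eq_zero] at this
  exact h (φ (regularSection t)) (((germ_cst c (regularOpen t) _).symm.trans
    (congrArg _ this)).trans (germ_regularSection t))

/-- A global function is constant. -/
theorem exists_cst_top [IsProper c] (s : Γ(C, ⊤)) : ∃ a, cst c ⊤ a = s := by
  let := (isField_of_universallyClosed k c).toField
  let : Algebra k Γ(C, ⊤) := (cst c ⊤).toAlgebra
  have : Module.Finite k Γ(C, ⊤) := by
    refine RingHom.finite_algebraMap.mp ?_
    have h := RingHom.finite_respectsIso.2 _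
      (Scheme.ΓSpecIso (CommRingCat.of k)).commRingCatIsoToRingEquiv.symm
      (finite_appTop_of_universallyClosed k c)
    rwa [show algebraMap k Γ(C, ⊤) =
      ((Scheme.ΓSpecIso (CommRingCat.of k)).inv ≫ c.appTop).hom from by
        change cst c ⊤ = _
        rw [cst]
        congr 2
        exact Scheme.Hom.appLE_eq_app c]
  exact IsAlgClosed.algebraMap_bijective_of_isIntegral.2 s

section Build

variable [IsProper c] [SmoothOfRelativeDimension 1 c] {f : C.functionField}

/-- The two-chart data of a nonconstant rational function with a rational zero. -/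
def chartsOf (h₀ : ∀ a, cstK c a ≠ f⁻¹) (h₁ : ∀ a, cstK c a ≠ f) (hf : f ≠ 0)
    (εA : Γ(C, regularOpen f) →+* k) (hεc : ∀ a, εA (cst c (regularOpen f) a) = a)
    (hεy : εA (regularSection f) = 0) : CurveCharts k :=
  letI := (cst c (regularOpen f⁻¹)).toAlgebra
  letI := (cst c (regularOpen f)).toAlgebra
  letI := (cst c (regularOpen f⁻¹ ⊓ regularOpen f)).toAlgebra
  haveI : Nonempty (regularOpen f⁻¹ ⊓ regularOpen f : C.Opens) :=
    ⟨⟨genericPoint C, genericPoint_mem _, genericPoint_mem _⟩⟩
  have hU0 := isAffineOpen_regularOpen c f⁻¹ (evalSection_injective c h₀)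
  have hU1 := isAffineOpen_regularOpen c f (evalSection_injective c h₁)
  have e₀ : (Polynomial.aeval (regularSection f⁻¹) : k[X] →ₐ[k] _).toRingHom =
      evalSection c f⁻¹ := rfl
  have e₁ : (Polynomial.aeval (regularSection f) : k[X] →ₐ[k] _).toRingHom =
      evalSection c f := rfl
  have hprod := regularOpen_inf_inv (inv_ne_zero hf) (regularSection f⁻¹) (germ_regularSection _)
  have hprod' := regularOpen_inf_inv hf (regularSection f) (germ_regularSection _)
  { A0 := Γ(C, regularOpen f⁻¹)
    A1 := Γ(C, regularOpen f)
    A01 := Γ(C, regularOpen f⁻¹ ⊓ regularOpen f)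
    res0 :=
      { (C.presheaf.map (homOfLE (inf_le_left :
          regularOpen f⁻¹ ⊓ regularOpen f ≤ regularOpen f⁻¹)).op).hom with
        commutes' := fun a ↦ cst_res c inf_le_left a }
    res1 :=
      { (C.presheaf.map (homOfLE (inf_le_right :
          regularOpen f⁻¹ ⊓ regularOpen f ≤ regularOpen f)).op).hom with
        commutes' := fun a ↦ cst_res c inf_le_right a }
    x := regularSection f⁻¹
    y := regularSection f
    res0_mul_res1 := by
      apply C.germToFunctionField_injective (regularOpen f⁻¹ ⊓ regularOpen f)
      rw [map_mul, map_one]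
      refine (congrArg₂ (· * ·)
        ((C.presheaf.germ_res_apply _ _ _ _).trans (germ_regularSection f⁻¹))
        ((C.presheaf.germ_res_apply _ _ _ _).trans (germ_regularSection f))).trans ?_
      exact inv_mul_cancel₀ hf
    -- the overlap is the non-vanishing locus of the coordinate on each chart
    loc0 := hU0.isLocalization_of_eq_basicOpen (regularSection f⁻¹) (homOfLE inf_le_left)
      (by rw [← hprod, inv_inv])
    loc1 := hU1.isLocalization_of_eq_basicOpen (regularSection f) (homOfLE inf_le_right)
      (by rw [← hprod', inf_comm])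
    finite0 := e₀ ▸ finite_evalSection c f⁻¹ (evalSection_injective c h₀)
    finite1 := e₁ ▸ finite_evalSection c f (evalSection_injective c h₁)
    injective0 := evalSection_injective c h₀
    injective1 := evalSection_injective c h₁
    diag0 :=
      haveI := finiteType_cst c hU0
      haveI : Algebra.FiniteType k Γ(C, regularOpen f⁻¹) := this
      haveI := isDedekindDomain_section c hU0
      invertible_ideal_kaehler (not_isField_section c h₀ hU0)
    diag1 :=
      haveI := finiteType_cst c hU1
      haveI : Algebra.FiniteType k Γ(C, regularOpen f) := this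
      haveI := isDedekindDomain_section c hU1
      invertible_ideal_kaehler (not_isField_section c h₁ hU1)
    -- a function regular on both charts is a global section, so a constant
    regular := by
      intro a b hab
      set t := C.germToFunctionField (regularOpen f⁻¹) a with ht
      have hb : C.germToFunctionField (regularOpen f) b = t := by
        have h := congrArg (C.germToFunctionField (regularOpen f⁻¹ ⊓ regularOpen f)) hab
        exact ((C.presheaf.germ_res_apply _ _ _ _).symm.trans
          (h.symm.trans (C.presheaf.germ_res_apply _ _ _ _)))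
      have htop : (⊤ : C.Opens) ≤ regularOpen t := by
        rw [← regularOpen_sup_inv (fun w ↦ valuationRing_stalk c w) f, sup_le_iff]
        exact ⟨hb ▸ le_regularOpen (regularOpen f) b, le_regularOpen (regularOpen f⁻¹) a⟩
      obtain ⟨s, hs⟩ := exists_section htop
      obtain ⟨r, rfl⟩ := exists_cst_top c s
      refine ⟨r, C.germToFunctionField_injective (regularOpen f⁻¹) ?_⟩
      exact hs.symm.trans (germ_cst c (regularOpen f⁻¹) r).symm
    ε := { εA with commutes' := hεc }
    ε_y := hεy }

end Build

/-- A pointed smooth proper integral curve over an algebraically closed field has a model. -/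
theorem nonempty_curveModel [IsProper c] [SmoothOfRelativeDimension 1 c]
    (ε : SchemeHomOver (𝟙 (Spec (CommRingCat.of k))) c) : Nonempty (CurveModel c ε) := by
  set cp : Spec (CommRingCat.of k) := IsLocalRing.closedPoint k
  set e : C := ε.1 cp with he_def
  have he : e ≠ genericPoint C := by
    intro he
    have hcl : IsClosed ({e} : Set C) := by
      have : IsClosedImmersion (ε.1 ≫ c) := by rw [ε.2]; infer_instance
      have : IsClosedImmersion ε.1 := IsClosedImmersion.of_comp ε.1 c
      convert ε.1.isClosedEmbedding.isClosed_range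
      ext w
      exact ⟨fun h ↦ ⟨cp, h.symm⟩, fun ⟨q, hq⟩ ↦ by
        rw [Set.mem_singleton_iff, ← hq, he_def,
          Subsingleton.elim (α := PrimeSpectrum k) q cp]⟩
    have huniv : ∀ w : C, w = genericPoint C := fun w ↦ by
      have := ((genericPoint_spec C).specializes (y := w) (Set.mem_univ w)).mem_closed hcl
        (by rw [Set.mem_singleton_iff]; exact he.symm)
      rw [Set.mem_singleton_iff] at this
      exact this.trans he
    -- otherwise the curve is a point, so some chart would be a field
    obtain ⟨V, hV, hzV, -, hnf⟩ := dedekind_chart c (genericPoint C)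
    have : Nonempty V := ⟨⟨_, hzV⟩⟩
    obtain ⟨m, hm⟩ := Ideal.exists_maximal Γ(C, V)
    have hmem : hV.fromSpec ⟨m, hm.isPrime⟩ ∈ V := by
      rw [← SetLike.mem_coe, ← hV.range_fromSpec]; exact Set.mem_range_self _
    have h1 : hV.primeIdealOf ⟨_, hmem⟩ = ⟨m, hm.isPrime⟩ :=
      hV.fromSpec.isOpenEmbedding.injective (hV.fromSpec_primeIdealOf _)
    rw [show (⟨_, hmem⟩ : V) = ⟨genericPoint C, hzV⟩ from Subtype.ext (huniv _),
      hV.primeIdealOf_genericPoint, genericPoint_eq_bot_of_affine] at h1
    have h2 : (⊥ : Ideal Γ(C, V)) = m := congrArg PrimeSpectrum.asIdeal h1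
    exact hnf (Ring.isField_iff_maximal_bot.mpr (h2 ▸ hm))
  -- a uniformiser at the base point gives the coordinate
  have := isDVR_stalk c he
  obtain ⟨π, hπ⟩ := IsDiscreteValuationRing.exists_irreducible (C.presheaf.stalk e)
  set f : C.functionField := algebraMap (C.presheaf.stalk e) C.functionField π with hf_def
  have hinj := IsFractionRing.injective (C.presheaf.stalk e) C.functionField
  have hf : f ≠ 0 := fun h ↦ hπ.ne_zero (hinj (h.trans (map_zero _).symm))
  have hf1 : ∀ a, cstK c a ≠ f := by
    intro a ha
    rcases eq_or_ne a 0 with rfl | ha0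
    · exact hf (by rw [← ha, map_zero])
    apply hπ.not_isUnit
    have hπa : C.presheaf.germ ⊤ e trivial (cst c ⊤ a) = π := hinj (by
      rw [C.algebraMap_germ_eq_germToFunctionField, ← hf_def, ← ha]
      rfl)
    rw [← hπa]
    exact ((IsUnit.mk0 a ha0).map (cst c ⊤)).map _
  have hf0 : ∀ a, cstK c a ≠ f⁻¹ := fun a ha ↦ hf1 a⁻¹ (by rw [map_inv₀, ha, inv_inv])
  have heU : e ∈ regularOpen f := ⟨π, rfl⟩
  have hge : C.presheaf.germ (regularOpen f) e heU (regularSection f) = π := hinj (by
    rw [C.algebraMap_germ_eq_germToFunctionField heU, germ_regularSection])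
  have hεmem : ε.1 ⁻¹ᵁ regularOpen f = ⊤ :=
    (IsLocalRing.closedPoint_mem_iff _).1 heU
  -- evaluation at the base point on its chart, which kills the coordinate
  let εA : Γ(C, regularOpen f) →+* k :=
    (ε.1.appLE (regularOpen f) ⊤ hεmem.ge ≫ (Scheme.ΓSpecIso (CommRingCat.of k)).hom).hom
  have hεc : ∀ a, εA (cst c (regularOpen f) a) = a := by
    intro a
    have h : c.appLE ⊤ (regularOpen f) le_top ≫ ε.1.appLE (regularOpen f) ⊤ hεmem.ge =
        𝟙 Γ(Spec (CommRingCat.of k), ⊤) := by
      rw [Scheme.Hom.appLE_comp_appLE]
      rw [appLE_top_top, ε.2]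
      simp
    change (((Scheme.ΓSpecIso (CommRingCat.of k)).inv ≫ c.appLE ⊤ (regularOpen f) le_top) ≫
      ε.1.appLE (regularOpen f) ⊤ hεmem.ge ≫ (Scheme.ΓSpecIso (CommRingCat.of k)).hom).hom a = a
    rw [Category.assoc, reassoc_of% h, Iso.inv_hom_id]
    rfl
  have hεy : εA (regularSection f) = 0 := by
    by_contra hne
    have hu : IsUnit (ε.1.appLE (regularOpen f) ⊤ hεmem.ge (regularSection f)) := by
      have := (IsUnit.mk0 _ hne).map (Scheme.ΓSpecIso (CommRingCat.of k)).inv.hom
      simpa [εA] using this
    have hbo := Scheme.basicOpen_of_isUnit _ hu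
    rw [Scheme.basicOpen_appLE] at hbo
    have h2 : cp ∈ ε.1 ⁻¹ᵁ C.basicOpen (regularSection f) :=
      ((hbo.ge (show cp ∈ (⊤ : (Spec (CommRingCat.of k)).Opens) from trivial)) : cp ∈ _ ⊓ _).2
    exact hπ.not_isUnit (hge ▸ (C.mem_basicOpen _ e heU).mp h2)
  exact ⟨
    { G := chartsOf c hf0 hf1 hf εA hεc hεy
      U0 := regularOpen f⁻¹
      U1 := regularOpen f
      hU0 := isAffineOpen_regularOpen c _ (evalSection_injective c hf0)
      hU1 := isAffineOpen_regularOpen c _ (evalSection_injective c hf1)
      cover := by rw [sup_comm]; exact regularOpen_sup_inv (fun w ↦ valuationRing_stalk c w) f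
      e0 := RingEquiv.refl _
      e1 := RingEquiv.refl _
      e01 := RingEquiv.refl _
      e0_algebraMap := fun _ ↦ rfl
      e1_algebraMap := fun _ ↦ rfl
      e01_algebraMap := fun _ ↦ rfl
      e01_res0 := fun _ ↦ rfl
      e01_res1 := fun _ ↦ rfl
      inf_eq0 := by
        have := regularOpen_inf_inv (inv_ne_zero hf) (regularSection f⁻¹) (germ_regularSection _)
        rw [inv_inv] at this
        exact this
      inf_eq1 := by
        rw [inf_comm]
        exact regularOpen_inf_inv hf (regularSection f) (germ_regularSection _)
      ε_mem := hεmem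
      ε_eval := fun a ↦
        ((Scheme.ΓSpecIso (CommRingCat.of k)).hom_inv_id_apply
          (ε.1.appLE (regularOpen f) ⊤ hεmem.ge a)).symm }⟩

end

end Fermat.PIC
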