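import Fermat.Agent.PIC.Chart.Charts
import Fermat.Prelude.Def_AlgebraicGeometry_NeronModelPropertyBundleCarrier
import Mathlib

/-!
# Models of a curve by two affine charts

`CurveModel` identifies two affine charts with chart data, the base point lying in the second.
-/

set_option autoImplicit false

universe u

open CategoryTheory AlgebraicGeometry NeronModelInfra

namespace Fermat.PIC

noncomputable section

variable {k : Type u} [Field k] {C : Scheme.{u}} (c : C ⟶ Spec (CommRingCat.of k))

/-- The constants as sections over an open. -/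
def cst (U : C.Opens) : k →+* Γ(C, U) :=
  ((Scheme.ΓSpecIso (CommRingCat.of k)).inv ≫ c.appLE ⊤ U le_top).hom

/-- Restricting a constant section gives a constant section. -/
lemma cst_res {U V : C.Opens} (h : V ≤ U) (a : k) :
    C.presheaf.map (homOfLE h).op (cst c U a) = cst c V a := by
  simp only [cst, CommRingCat.hom_comp, RingHom.coe_comp, Function.comp_apply]
  exact congr($(c.appLE_map (U := ⊤) (V := U) (V' := V) le_top (homOfLE h).op) _)

variable (ε : SchemeHomOver (𝟙 (Spec (CommRingCat.of k))) c)

/-- Two affine charts of a curve identified with chart data, with the base point in the second. -/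
structure CurveModel where
  /-- The chart data with which the two charts are identified. -/
  G : CurveCharts k
  /-- The open set of the first chart, where `x` is regular. -/
  U0 : C.Opens
  /-- The open set of the second chart, where `y` is regular; it contains the base point. -/
  U1 : C.Opens
  /-- The first chart is affine. -/
  hU0 : IsAffineOpen U0
  /-- The second chart is affine. -/
  hU1 : IsAffineOpen U1
  /-- The charts cover the curve. -/
  cover : U0 ⊔ U1 = ⊤
  /-- Functions on the first chart. -/
  e0 : G.A0 ≃+* Γ(C, U0)
  /-- Functions on the second chart. -/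
  e1 : G.A1 ≃+* Γ(C, U1)
  /-- Functions on the overlap. -/
  e01 : G.A01 ≃+* Γ(C, U0 ⊓ U1)
  /-- `e0` is compatible with constants. -/
  e0_algebraMap : ∀ a : k, e0 (algebraMap k G.A0 a) = cst c U0 a
  /-- `e1` is compatible with constants. -/
  e1_algebraMap : ∀ a : k, e1 (algebraMap k G.A1 a) = cst c U1 a
  /-- `e01` is compatible with constants. -/
  e01_algebraMap : ∀ a : k, e01 (algebraMap k G.A01 a) = cst c (U0 ⊓ U1) a
  /-- Restriction from the first chart corresponds to `res0`. -/
  e01_res0 : ∀ a, e01 (G.res0 a) =
    C.presheaf.map (homOfLE (inf_le_left : U0 ⊓ U1 ≤ U0)).op (e0 a)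
  /-- Restriction from the second chart corresponds to `res1`. -/
  e01_res1 : ∀ a, e01 (G.res1 a) =
    C.presheaf.map (homOfLE (inf_le_right : U0 ⊓ U1 ≤ U1)).op (e1 a)
  /-- The overlap is where `x` is invertible. -/
  inf_eq0 : U0 ⊓ U1 = C.basicOpen (e0 G.x)
  /-- The overlap is where `y` is invertible. -/
  inf_eq1 : U0 ⊓ U1 = C.basicOpen (e1 G.y)
  /-- The base point lies in the second chart. -/
  ε_mem : ε.1 ⁻¹ᵁ U1 = ⊤
  /-- There it is evaluation by `G.ε`. -/
  ε_eval : ∀ a, ε.1.appLE U1 ⊤ ε_mem.ge (e1 a) =
    (Scheme.ΓSpecIso (CommRingCat.of k)).inv (G.ε a)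

end

end Fermat.PIC
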