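import Fermat.Agent.PIC.Curve.TensorDomain
import Fermat.Agent.PIC.InvertibleModule
import Mathlib

/-!
# Coordinate rings of smooth curves over an algebraically closed field

They are Dedekind domains, and their diagonal ideals are invertible.
-/

set_option autoImplicit false

universe u

open scoped TensorProduct

namespace Fermat.PIC

/-- An ideal of a domain on which, away from each maximal ideal, some functional takes a value
prime to it, is invertible. -/
theorem invertible_of_exists_functional {R : Type u} [CommRing R] (I : Ideal R)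
    (h : ∀ P : Ideal R, P.IsMaximal → ∃ (f : Module.Dual R I) (m : I), f m ∉ P) :
    Module.Invertible R I := by
  have hsmul : ∀ (f : Module.Dual R I) (m n : I), f m • n = f n • m := by
    intro f m n
    have h₁ : f ((m : R) • n) = f ((n : R) • m) := congrArg f (Subtype.ext (mul_comm (m : R) n))
    simp only [map_smul, smul_eq_mul] at h₁
    exact Subtype.ext (by simpa [mul_comm] using h₁.symm)
  refine invertible_of_contract ?_ hsmul
  rw [← Ideal.eq_top_iff_one (LinearMap.range (contractLeft R I))]
  by_contra hne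
  obtain ⟨P, hP, hle⟩ := Ideal.exists_le_maximal _ hne
  obtain ⟨f, m, hfm⟩ := h P hP
  exact hfm (hle ⟨f ⊗ₜ m, contractLeft_apply f m⟩)

variable {k : Type u} [Field k] {B : Type u} [CommRing B] [Algebra k B]

/-- The kernel of a point of a smooth algebra of dimension one is principal modulo its square. -/
theorem exists_uniformizer [Algebra.IsStandardSmoothOfRelativeDimension 1 k B]
    (φ : B →ₐ[k] k) :
    ∃ t ∈ RingHom.ker φ, RingHom.ker φ ≤
      Ideal.span {t} ⊔ RingHom.ker φ * RingHom.ker φ := by
  classical
  have : Nontrivial B := (φ : B →+* k).domain_nontrivial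
  have : Algebra.IsStandardSmooth k B :=
    Algebra.IsStandardSmoothOfRelativeDimension.isStandardSmooth 1
  set m : Ideal B := RingHom.ker φ with hm
  have hmem : ∀ b, b - algebraMap k B (φ b) ∈ m := fun b ↦ by simp [hm, RingHom.mem_ker]
  -- `b ↦ b - φ b` gives a derivation into the cotangent space at `φ`
  let D₀ : B →ₗ[k] m :=
    { toFun := fun b ↦ ⟨b - algebraMap k B (φ b), hmem b⟩
      map_add' := fun a b ↦ Subtype.ext (by simp [map_add]; ring)
      map_smul' := fun r b ↦ Subtype.ext (by
        simp only [map_mul, Algebra.smul_def, Submodule.coe_smul_of_tower, AlgHom.commutes,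
          Algebra.algebraMap_self, RingHom.id_apply]
        ring) }
  let D : Derivation k B m.Cotangent := Derivation.mk'
    ((m.toCotangent.restrictScalars k).comp D₀) fun a b ↦ by
      simp only [LinearMap.coe_comp, LinearMap.coe_restrictScalars, Function.comp_apply]
      change m.toCotangent (D₀ (a * b)) =
        a • m.toCotangent (D₀ b) + b • m.toCotangent (D₀ a)
      rw [← m.toCotangent.map_smul, ← m.toCotangent.map_smul, ← map_add, Ideal.toCotangent_eq]
      convert (show _ from
        (pow_two m).symm ▸ neg_mem (Ideal.mul_mem_mul (hmem a) (hmem b))) using 1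
      simp [D₀, map_mul]
      ring
  -- differentials are free of rank one on `ω`; lift the image of `ω` to `t`
  have hfin : Module.finrank B Ω[B⁄k] = 1 := Module.finrank_eq_of_rank_eq
    (Algebra.IsStandardSmoothOfRelativeDimension.rank_kaehlerDifferential 1)
  obtain ⟨ω, -, hω⟩ := finrank_eq_one_iff'.mp hfin
  obtain ⟨⟨t, ht⟩, htω⟩ := m.toCotangent_surjective (D.liftKaehlerDifferential ω)
  refine ⟨t, ht, fun b hb ↦ ?_⟩
  -- for `b` in the kernel, `d b = c ω` gives `b ≡ c t` modulo its square
  obtain ⟨c, hc⟩ := hω (KaehlerDifferential.D k B b)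
  have h2 : m.toCotangent (D₀ b) = m.toCotangent ⟨c * t, m.mul_mem_left c ht⟩ := by
    have : D b = c • m.toCotangent ⟨t, ht⟩ := by
      rw [← D.liftKaehlerDifferential_comp_D, ← hc, map_smul, htω]
    rw [show (⟨c * t, m.mul_mem_left c ht⟩ : m) = c • ⟨t, ht⟩ from rfl, map_smul, ← this]
    rfl
  rw [Ideal.toCotangent_eq, pow_two] at h2
  have hbb : ((D₀ b : m) : B) = b := by
    simp [D₀, RingHom.mem_ker.mp hb]
  rw [hbb] at h2
  have : b = c * t + (b - c * t) := by ring
  rw [this]
  exact Submodule.add_mem_sup (Ideal.mem_span_singleton.mpr ⟨c, mul_comm _ _⟩) h2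

/-- A nonzero smooth algebra of dimension one over a field is bigger than the field. -/
theorem not_surjective_of_standardSmooth [Nontrivial B]
    [Algebra.IsStandardSmoothOfRelativeDimension 1 k B] :
    ¬ Function.Surjective (algebraMap k B) := by
  intro h
  have : Algebra.IsStandardSmooth k B :=
    Algebra.IsStandardSmoothOfRelativeDimension.isStandardSmooth 1
  have := KaehlerDifferential.subsingleton_of_surjective k B h
  have h1 := Algebra.IsStandardSmoothOfRelativeDimension.rank_kaehlerDifferential (R := k)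
    (S := B) 1
  rw [rank_subsingleton' B (Ω[B⁄k])] at h1
  simp at h1

variable [IsAlgClosed k]

/-- Smooth algebras of dimension one which are domains are Dedekind domains. -/
theorem isDedekindDomain_of_standardSmooth [IsDomain B]
    [Algebra.IsStandardSmoothOfRelativeDimension 1 k B] :
    IsDedekindDomain B ∧ ¬ IsField B := by
  have : Algebra.IsStandardSmooth k B :=
    Algebra.IsStandardSmoothOfRelativeDimension.isStandardSmooth 1
  have : IsNoetherianRing B := Algebra.FiniteType.isNoetherianRing k B
  -- not a field: such a field would be `k`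
  have hnf : ¬ IsField B := by
    intro hB
    have : (⊥ : Ideal B).IsMaximal := Ring.isField_iff_maximal_bot.mp hB
    obtain ⟨φ, hφ⟩ := exists_point_of_isMaximal (k := k) (⊥ : Ideal B)
    refine not_surjective_of_standardSmooth (k := k) (B := B) fun b ↦ ⟨φ b, ?_⟩
    have : algebraMap k B (φ b) - b ∈ RingHom.ker φ := by simp [RingHom.mem_ker]
    rw [hφ, Ideal.mem_bot, sub_eq_zero] at this
    exact this
  have hdvr : ∀ m : Ideal B, [m.IsMaximal] → IsDiscreteValuationRing (Localization.AtPrime m) := by
    intro m _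
    obtain ⟨φ, rfl⟩ := exists_point_of_isMaximal (k := k) m
    obtain ⟨t, ht, hle⟩ := exists_uniformizer φ
    set m : Ideal B := RingHom.ker φ
    have hm0 : m ≠ ⊥ := fun h ↦ hnf (Ring.isField_iff_maximal_bot.mpr (h ▸ inferInstance))
    have hnf' : ¬ IsField (Localization.AtPrime m) :=
      IsLocalization.AtPrime.not_isField B hm0 _
    refine ((IsDiscreteValuationRing.TFAE _ hnf').out 0 4).mpr ?_
    -- by Nakayama the uniformiser generates the maximal ideal of the local ring
    obtain ⟨r, hr, hr'⟩ := Submodule.exists_sub_one_mem_and_smul_le_of_fg_of_le_sup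
      (I := m) (N := Ideal.span {t}) (N' := m) (IsNoetherian.noetherian m) le_rfl
      (by rwa [smul_eq_mul])
    have hrm : r ∉ m := fun h ↦ (Ideal.IsPrime.ne_top inferInstance : m ≠ ⊤)
      ((Ideal.eq_top_iff_one _).mpr (by simpa using m.sub_mem h hr))
    refine ⟨algebraMap B _ t, ?_⟩
    change _ = Ideal.span _
    refine le_antisymm ?_ ((Ideal.span_singleton_le_iff_mem _).mpr ?_)
    · rw [← Localization.AtPrime.map_eq_maximalIdeal, Ideal.map_le_iff_le_comap]
      intro x hx
      obtain ⟨c, hc⟩ := Ideal.mem_span_singleton.mp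
        (hr' (Submodule.smul_mem_pointwise_smul x r _ hx))
      have hu : IsUnit (algebraMap B (Localization.AtPrime m) r) :=
        IsLocalization.map_units (Localization.AtPrime m) (⟨r, hrm⟩ : m.primeCompl)
      rw [Ideal.mem_comap, Ideal.mem_span_singleton, ← hu.dvd_mul_left, ← map_mul]
      exact ⟨algebraMap B _ c, by rw [← map_mul, ← hc]; rfl⟩
    · rw [← Localization.AtPrime.map_eq_maximalIdeal]
      exact Ideal.mem_map_of_mem _ ht
  -- the local rings being DVRs, nonzero primes are maximal
  have : IsDedekindDomainDvr B :=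
    { is_dvr_at_nonzero_prime := fun P hP hPp ↦ by
        suffices P.IsMaximal by exact hdvr P
        obtain ⟨m, hm, hPm⟩ := Ideal.exists_le_maximal P hPp.ne_top
        suffices P = m by exact this ▸ hm
        have := hdvr m
        have hd : Disjoint (m.primeCompl : Set B) (P : Set B) :=
          Set.disjoint_left.mpr fun x hx hxP ↦ hx (hPm hxP)
        have hP' := IsLocalization.isPrime_of_isPrime_disjoint m.primeCompl
          (Localization.AtPrime m) P hPp hd
        have hne : P.map (algebraMap B (Localization.AtPrime m)) ≠ ⊥ := fun h ↦ hP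
          ((Ideal.map_eq_bot_iff_of_injective
            (IsLocalization.injective _ m.primeCompl_le_nonZeroDivisors)).mp h)
        have := IsLocalRing.eq_maximalIdeal (hP'.isMaximal hne)
        have h1 := congrArg (Ideal.comap (algebraMap B (Localization.AtPrime m))) this
        exact (IsLocalization.under_map_of_isPrime_disjoint m.primeCompl _ hPp hd).symm.trans
          (h1.trans Localization.AtPrime.under_maximalIdeal) }
  exact ⟨inferInstance, hnf⟩

variable {A : Type u} [CommRing A] [Algebra k A]

/-- The difference of the two copies of an element. -/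
private noncomputable def dd (a : A) : A ⊗[k] A := 1 ⊗ₜ a - a ⊗ₜ 1

/-- The diagonal of a Dedekind algebra of finite type is an invertible ideal. -/
theorem invertible_ideal_kaehler [IsDedekindDomain A] [Algebra.FiniteType k A]
    (hA : ¬ IsField A) :
    Module.Invertible (A ⊗[k] A) (KaehlerDifferential.ideal k A) := by
  have : IsDomain (A ⊗[k] A) := isDomain_tensor
  have : Algebra.FiniteType k (A ⊗[k] A) :=
    Algebra.FiniteType.trans (S := A) inferInstance inferInstance
  have : IsNoetherianRing (A ⊗[k] A) := Algebra.FiniteType.isNoetherianRing k _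
  set J := KaehlerDifferential.ideal k A with hJ
  refine invertible_of_exists_functional J fun P hP ↦ ?_
  by_cases hle : J ≤ P
  swap
  · obtain ⟨i, hi, hiP⟩ := SetLike.not_le_iff_exists.mp hle
    exact ⟨J.subtype, ⟨i, hi⟩, hiP⟩
  obtain ⟨ψ, rfl⟩ := exists_point_of_isMaximal (k := k) P
  let φ : A →ₐ[k] k := ψ.comp Algebra.TensorProduct.includeLeft
  have hφ : ∀ a, φ a = ψ (1 ⊗ₜ a) := fun a ↦ by
    have := hle (KaehlerDifferential.one_smul_sub_smul_one_mem_ideal k a)
    rw [RingHom.mem_ker, map_sub, sub_eq_zero] at this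
    simpa [φ] using this.symm
  set m : Ideal A := RingHom.ker φ with hm
  have hm0 : m ≠ ⊥ := fun h ↦ hA (Ring.isField_iff_maximal_bot.mpr
    (h ▸ RingHom.ker_isMaximal_of_surjective φ fun c ↦ ⟨algebraMap k A c, by simp⟩))
  have : m.IsMaximal :=
    RingHom.ker_isMaximal_of_surjective φ fun c ↦ ⟨algebraMap k A c, by simp⟩
  -- at a diagonal point, take a uniformiser `t` of `m`
  obtain ⟨t, htm, ht2⟩ := SetLike.exists_of_lt (Ideal.pow_succ_lt_pow hm0 1)
  rw [pow_one] at htm
  have hmt : Ideal.span {t} ⊔ m ^ 2 = m := by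
    have h := Ideal.eq_prime_pow_of_succ_lt_of_le hm0 (I := Ideal.span {t} ⊔ m ^ 2) (i := 1)
      (lt_of_le_not_ge le_sup_right fun h ↦ ht2
        (h (Ideal.mem_sup_left (Ideal.mem_span_singleton_self t))))
      (by
        rw [pow_one]
        exact sup_le ((Ideal.span_singleton_le_iff_mem _).mpr htm)
          (Ideal.pow_le_self two_ne_zero))
    rwa [pow_one] at h
  set P : Ideal (A ⊗[k] A) := RingHom.ker ψ
  have hdd : ∀ a, dd a ∈ J := fun a ↦
    KaehlerDifferential.one_smul_sub_smul_one_mem_ideal k a
  have hmul : ∀ a b : A, dd (a * b) = (a ⊗ₜ[k] (1 : A)) * dd b + ((1 : A) ⊗ₜ[k] b) * dd a := by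
    intro a b
    simp only [dd, mul_sub, Algebra.TensorProduct.tmul_mul_tmul, mul_one, one_mul, mul_comm b a]
    abel
  have hq : ∀ q ∈ m ^ 2, dd q ∈ P * J := by
    intro q hq
    rw [pow_two] at hq
    refine Submodule.mul_induction_on hq (fun a ha b hb ↦ ?_) fun a b ha hb ↦ ?_
    · rw [hmul]
      refine add_mem (Ideal.mul_mem_mul ?_ (hdd b)) (Ideal.mul_mem_mul ?_ (hdd a))
      · rw [RingHom.mem_ker]; exact ha
      · rw [RingHom.mem_ker, ← hφ]; exact hb
    · have : dd (a + b) = (dd a + dd b : A ⊗[k] A) := by
        simp only [dd, TensorProduct.tmul_add, TensorProduct.add_tmul]; abel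
      rw [this]
      exact add_mem ha hb
  -- modulo `P J` the ideal `J` is generated by `dd t`
  have hJle : J ≤ Ideal.span {dd t} ⊔ P • J := by
    rw [hJ, ← KaehlerDifferential.span_range_eq_ideal, Ideal.span_le]
    rintro _ ⟨a, rfl⟩
    change dd a ∈ _
    have ha : a - algebraMap k A (φ a) ∈ m := by simp [hm, RingHom.mem_ker]
    rw [← hmt, Submodule.mem_sup] at ha
    obtain ⟨_, hs, q, hq', hsum⟩ := ha
    obtain ⟨s, rfl⟩ := Ideal.mem_span_singleton'.mp hs
    have hc : dd a = (dd (s * t) + dd q : A ⊗[k] A) := by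
      rw [eq_add_of_sub_eq' hsum.symm]
      simp only [dd, TensorProduct.tmul_add, TensorProduct.add_tmul,
        Algebra.algebraMap_eq_smul_one, TensorProduct.tmul_smul, TensorProduct.smul_tmul']
      abel
    rw [hc, hmul, add_assoc, KaehlerDifferential.span_range_eq_ideal, smul_eq_mul]
    refine Submodule.add_mem_sup (Ideal.mul_mem_left _ _ (Ideal.mem_span_singleton_self _))
      (add_mem (Ideal.mul_mem_mul ?_ (hdd s)) (hq q hq'))
    rw [RingHom.mem_ker, ← hφ]; exact htm
  -- Nakayama: `r • J ⊆ (dd t)` for some `r ∉ P`, giving a functional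
  obtain ⟨r, hr, hr'⟩ := Submodule.exists_sub_one_mem_and_smul_le_of_fg_of_le_sup
    (IsNoetherian.noetherian J) le_rfl hJle
  have hrP : r ∉ P := fun h ↦ hP.ne_top ((Ideal.eq_top_iff_one _).mpr (by
    simpa using P.sub_mem h hr))
  have ht0 : dd t ≠ (0 : A ⊗[k] A) := fun h ↦ by
    have h' := congrArg (Algebra.TensorProduct.lift (AlgHom.id k A) ((Algebra.ofId k A).comp φ)
      fun _ _ ↦ Commute.all _ _) h
    simp only [dd, map_sub, Algebra.TensorProduct.lift_tmul, map_one, mul_one, one_mul,
      AlgHom.coe_id, id_eq, map_zero, AlgHom.coe_comp, Function.comp_apply,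
      show φ t = 0 from RingHom.mem_ker.mp htm, zero_sub, neg_eq_zero] at h'
    exact ht2 (h' ▸ zero_mem _)
  have hex : ∀ x : J, ∃ c, c * dd t = r * (x : A ⊗[k] A) := fun x ↦
    Ideal.mem_span_singleton'.mp (hr' (Submodule.smul_mem_pointwise_smul (x : A ⊗[k] A) r _ x.2))
  choose c hc using hex
  let f : Module.Dual (A ⊗[k] A) J :=
    { toFun := c
      map_add' := fun x y ↦ mul_right_cancel₀ ht0 (by
        rw [add_mul, hc, hc, hc, Submodule.coe_add, mul_add])
      map_smul' := fun a x ↦ mul_right_cancel₀ ht0 (by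
        rw [RingHom.id_apply, smul_eq_mul, mul_assoc, hc, hc, Submodule.coe_smul, smul_eq_mul]
        ring) }
  refine ⟨f, ⟨dd t, hdd t⟩, ?_⟩
  have : f ⟨dd t, hdd t⟩ = r := mul_right_cancel₀ ht0 (hc ⟨dd t, hdd t⟩)
  rw [this]
  exact hrP

end Fermat.PIC
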