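import Fermat.Agent.PIC.Curve.Model
import Fermat.Agent.PIC.Curve.SmoothAlgebra

/-!
# Points and rational functions of a smooth curve

The rings of affine opens are Dedekind, the local rings valuation rings, and `regularOpen` is the
locus where a rational function is regular.
-/

set_option autoImplicit false

universe u

open CategoryTheory AlgebraicGeometry TopologicalSpace

namespace Fermat.PIC

noncomputable section

variable {k : Type u} [Field k] {C : Scheme.{u}} (c : C ⟶ Spec (CommRingCat.of k))

/-- Every point has an affine neighbourhood standard smooth of dimension one. -/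
theorem isStandardSmooth_chart [SmoothOfRelativeDimension 1 c] (z : C) :
    ∃ V : C.Opens, IsAffineOpen V ∧ z ∈ V ∧
      (cst c V).IsStandardSmoothOfRelativeDimension 1 := by
  obtain ⟨U, hU, V, hV, hz, e, h⟩ :=
    SmoothOfRelativeDimension.exists_isStandardSmoothOfRelativeDimension (n := 1) (f := c) z
  have hU' : U = ⊤ := top_unique fun p _ ↦ by
    have : p = c z := Subsingleton.elim (α := PrimeSpectrum k) p (c z)
    exact this ▸ e hz
  subst hU'
  refine ⟨V, hV, hz, ?_⟩
  have h' : (c.appLE ⊤ V le_top).hom.IsStandardSmoothOfRelativeDimension 1 := h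
  exact RingHom.isStandardSmoothOfRelativeDimension_respectsIso.2 _
    (Scheme.ΓSpecIso (CommRingCat.of k)).commRingCatIsoToRingEquiv.symm h'

/-- The functions on an affine open are of finite type over the ground field. -/
theorem finiteType_cst [LocallyOfFiniteType c] {V : C.Opens} (hV : IsAffineOpen V) :
    (cst c V).FiniteType :=
  RingHom.finiteType_respectsIso.2 _
    (Scheme.ΓSpecIso (CommRingCat.of k)).commRingCatIsoToRingEquiv.symm
    (c.finiteType_appLE (isAffineOpen_top _) hV le_top)

/-- A constant is the same rational function on every open. -/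
lemma germToFunctionField_cst [IsIntegral C] (U : C.Opens) [Nonempty U] (a : k) :
    C.germToFunctionField U (cst c U a) =
      C.germToFunctionField (h := ⟨⟨genericPoint C, trivial⟩⟩) ⊤ (cst c ⊤ a) := by
  rw [← cst_res c (le_top : U ≤ ⊤) a]
  exact C.presheaf.germ_res_apply _ _ _ _

section Integral

variable [IsIntegral C]

/-- An integral scheme is nonempty. -/
instance nonempty_top : Nonempty (⊤ : C.Opens) := ⟨⟨genericPoint C, trivial⟩⟩

/-- The generic point lies in every nonempty open. -/
lemma genericPoint_mem (U : C.Opens) [h : Nonempty U] : genericPoint C ∈ U :=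
  ((genericPoint_spec C).mem_open_set_iff U.isOpen).mpr (by simpa using h)

/-- A point other than the generic point corresponds to a nonzero prime. -/
lemma primeIdealOf_ne_bot {U : C.Opens} (hU : IsAffineOpen U) (z : U)
    (hz : (z : C) ≠ genericPoint C) : (hU.primeIdealOf z).asIdeal ≠ ⊥ := by
  intro h
  have : Nonempty U := ⟨z⟩
  apply hz
  have h' : hU.primeIdealOf z = hU.primeIdealOf ⟨genericPoint C, genericPoint_mem U⟩ := by
    rw [hU.primeIdealOf_genericPoint, genericPoint_eq_bot_of_affine]
    exact PrimeSpectrum.ext h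
  have := congrArg hU.fromSpec h'
  rwa [hU.fromSpec_primeIdealOf, hU.fromSpec_primeIdealOf] at this

variable [SmoothOfRelativeDimension 1 c] [IsAlgClosed k]
include c

/-- Every point lies in an affine open whose ring is a Dedekind domain. -/
theorem dedekind_chart (z : C) :
    ∃ V : C.Opens, IsAffineOpen V ∧ z ∈ V ∧ IsDedekindDomain Γ(C, V) ∧ ¬ IsField Γ(C, V) := by
  obtain ⟨V, hV, hz, h⟩ := isStandardSmooth_chart c z
  have : Nonempty V := ⟨⟨z, hz⟩⟩
  let := (cst c V).toAlgebra
  have : Algebra.IsStandardSmoothOfRelativeDimension 1 k Γ(C, V) := h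
  obtain ⟨h₁, h₂⟩ := isDedekindDomain_of_standardSmooth (k := k) (B := Γ(C, V))
  exact ⟨V, hV, hz, h₁, h₂⟩

/-- Local rings away from the generic point are discrete valuation rings. -/
theorem isDVR_stalk {z : C} (hz : z ≠ genericPoint C) :
    IsDiscreteValuationRing (C.presheaf.stalk z) := by
  obtain ⟨V, hV, hzV, hD, -⟩ := dedekind_chart c z
  have := hD
  have : Nonempty V := ⟨⟨z, hzV⟩⟩
  let := TopCat.Presheaf.algebra_section_stalk C.presheaf (⟨z, hzV⟩ : V)
  have := hV.isLocalization_stalk ⟨z, hzV⟩
  exact IsLocalization.AtPrime.isDiscreteValuationRing_of_dedekind_domain Γ(C, V)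
    (P := (hV.primeIdealOf ⟨z, hzV⟩).asIdeal) (primeIdealOf_ne_bot hV _ hz) (C.presheaf.stalk z)

/-- All local rings are valuation rings. -/
theorem valuationRing_stalk (z : C) : ValuationRing (C.presheaf.stalk z) := by
  by_cases hz : z = genericPoint C
  · subst hz
    exact inferInstanceAs (ValuationRing C.functionField)
  · have := isDVR_stalk c hz
    infer_instance

/-- Coordinate rings are Dedekind domains. -/
theorem isDedekindDomain_section [LocallyOfFiniteType c] {U : C.Opens} (hU : IsAffineOpen U)
    [Nonempty U] : IsDedekindDomain Γ(C, U) := by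
  let := (cst c U).toAlgebra
  have : Algebra.FiniteType k Γ(C, U) := finiteType_cst c hU
  have : IsNoetherianRing Γ(C, U) := Algebra.FiniteType.isNoetherianRing k _
  have : IsDedekindDomainDvr Γ(C, U) :=
    { is_dvr_at_nonzero_prime := fun P hP hPp ↦ by
        have hmem : hU.fromSpec ⟨P, hPp⟩ ∈ U := by
          rw [← SetLike.mem_coe, ← hU.range_fromSpec]; exact Set.mem_range_self _
        set z : U := ⟨hU.fromSpec ⟨P, hPp⟩, hmem⟩
        have hPz : hU.primeIdealOf z = ⟨P, hPp⟩ :=
          hU.fromSpec.isOpenEmbedding.injective (hU.fromSpec_primeIdealOf z)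
        have hz : (z : C) ≠ genericPoint C := by
          intro h
          have h' : z = ⟨genericPoint C, genericPoint_mem U⟩ := Subtype.ext h
          rw [h', hU.primeIdealOf_genericPoint, genericPoint_eq_bot_of_affine] at hPz
          exact hP (congrArg PrimeSpectrum.asIdeal hPz).symm
        have := isDVR_stalk c hz
        let := TopCat.Presheaf.algebra_section_stalk C.presheaf z
        have hloc := hU.isLocalization_stalk z
        rw [hPz] at hloc
        exact IsDiscreteValuationRing.RingEquivClass.isDiscreteValuationRing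
          (IsLocalization.algEquiv P.primeCompl
          (C.presheaf.stalk (z : C)) (Localization.AtPrime P)).toRingEquiv }
  infer_instance

/-- Points other than the generic point are closed. -/
theorem isClosed_singleton_of_ne {z : C} (hz : z ≠ genericPoint C) :
    IsClosed ({z} : Set C) := by
  rw [← closure_eq_iff_isClosed]
  refine Set.Subset.antisymm (fun w hw ↦ ?_) subset_closure
  have hzw : z ⤳ w := specializes_iff_mem_closure.mpr hw
  obtain ⟨V, hV, hwV, hD, -⟩ := dedekind_chart c w
  have := hD
  have hzV : z ∈ V := hzw.mem_open V.isOpen hwV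
  have : Nonempty V := ⟨⟨z, hzV⟩⟩
  have hsp : hV.primeIdealOf ⟨z, hzV⟩ ⤳ hV.primeIdealOf ⟨w, hwV⟩ := by
    refine hV.fromSpec.isOpenEmbedding.isInducing.specializes_iff.mp ?_
    rw [hV.fromSpec_primeIdealOf, hV.fromSpec_primeIdealOf]
    exact hzw
  rw [← PrimeSpectrum.le_iff_specializes] at hsp
  have hmax : (hV.primeIdealOf ⟨z, hzV⟩).asIdeal.IsMaximal :=
    (hV.primeIdealOf ⟨z, hzV⟩).isPrime.isMaximal (primeIdealOf_ne_bot hV _ hz)
  have heq : hV.primeIdealOf ⟨z, hzV⟩ = hV.primeIdealOf ⟨w, hwV⟩ :=
    PrimeSpectrum.ext (hmax.eq_of_le (hV.primeIdealOf ⟨w, hwV⟩).isPrime.ne_top hsp)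
  have := congrArg hV.fromSpec heq
  rw [hV.fromSpec_primeIdealOf, hV.fromSpec_primeIdealOf] at this
  exact this.symm

/-- Closed subsets missing the generic point are finite. -/
theorem finite_of_isClosed [NoetherianSpace C] {S : Set C} (hS : IsClosed S)
    (hη : genericPoint C ∉ S) : S.Finite := by
  obtain ⟨T, hT, hTirr, hST⟩ :=
    NoetherianSpace.exists_finite_set_closeds_irreducible (⟨S, hS⟩ : Closeds C)
  have hsingle : ∀ Z ∈ T, (Z : Set C).Finite := by
    intro Z hZ
    obtain ⟨w, hw⟩ := QuasiSober.sober (hTirr Z hZ) Z.isClosed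
    have hwS : w ∈ S := by
      have : (Z : Closeds C) ≤ ⟨S, hS⟩ := hST ▸ le_sSup hZ
      exact this hw.mem
    have hwη : w ≠ genericPoint C := fun h ↦ hη (h ▸ hwS)
    rw [← hw, (isClosed_singleton_of_ne c hwη).closure_eq]
    exact Set.finite_singleton w
  have hS' : S = ⋃ Z ∈ T, (Z : Set C) := by
    have := congrArg (fun W : Closeds C ↦ (W : Set C)) hST
    simp only [Closeds.coe_mk, Closeds.coe_sSup] at this
    rw [this]
    exact (by simpa [Set.sUnion_eq_biUnion] using
      (hT.isClosed_biUnion fun (Z : Closeds C) _ ↦ Z.isClosed).closure_eq)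
  rw [hS']
  exact hT.biUnion hsingle

end Integral

/-! ## Rational functions -/

section RationalFunction

variable [IsIntegral C]

/-- The locus where a rational function is regular. -/
def regularOpen (t : C.functionField) : C.Opens where
  carrier := {z | t ∈ Set.range (algebraMap (C.presheaf.stalk z) C.functionField)}
  is_open' := by
    refine isOpen_iff_forall_mem_open.mpr fun z hz ↦ ?_
    obtain ⟨a, ha⟩ := hz
    obtain ⟨W, hW, g, rfl⟩ := C.presheaf.exists_germ_eq a
    refine ⟨W, fun w hw ↦ ?_, W.isOpen, hW⟩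
    have : Nonempty W := ⟨⟨z, hW⟩⟩
    refine ⟨C.presheaf.germ W w hw g, ?_⟩
    rw [C.algebraMap_germ_eq_germToFunctionField hw g, ← ha,
      C.algebraMap_germ_eq_germToFunctionField hW g]

/-- A section is regular as a rational function on its open. -/
lemma le_regularOpen (U : C.Opens) [Nonempty U] (g : Γ(C, U)) :
    U ≤ regularOpen (C.germToFunctionField U g) := fun z hz ↦
  ⟨C.presheaf.germ U z hz g, C.algebraMap_germ_eq_germToFunctionField hz g⟩

/-- A rational function is regular somewhere. -/
instance nonempty_regularOpen (t : C.functionField) : Nonempty (regularOpen t) := by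
  obtain ⟨W, hW, g, rfl⟩ := C.presheaf.exists_germ_eq t
  have : Nonempty W := ⟨⟨_, hW⟩⟩
  exact ⟨⟨genericPoint C, le_regularOpen W g hW⟩⟩

/-- A rational function is a section over any open where it is regular. -/
theorem exists_section {t : C.functionField} {U : C.Opens} [Nonempty U]
    (h : U ≤ regularOpen t) : ∃ s : Γ(C, U), C.germToFunctionField U s = t := by
  choose a ha using fun z : U ↦ h z.2
  choose W hW g hg using fun z : U ↦ C.presheaf.exists_germ_eq (a z)
  let W' : U → C.Opens := fun z ↦ W z ⊓ U
  let g' : ∀ z, Γ(C, W' z) := fun z ↦ C.presheaf.map (homOfLE inf_le_left).op (g z)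
  have hne : ∀ z, Nonempty (W' z) := fun z ↦ ⟨⟨z, hW z, z.2⟩⟩
  have hg' : ∀ z, haveI := hne z; C.germToFunctionField (W' z) (g' z) = t := by
    intro z
    have := hne z
    have : Nonempty (W z) := ⟨⟨z, hW z⟩⟩
    rw [← ha z, ← hg z, C.algebraMap_germ_eq_germToFunctionField]
    exact C.presheaf.germ_res_apply _ _ _ _
  have hcompat : TopCat.Presheaf.IsCompatible C.sheaf.1 W' g' := by
    intro i j
    have := hne i
    have := hne j
    have : Nonempty (W' i ⊓ W' j : C.Opens) :=
      ⟨⟨genericPoint C, genericPoint_mem _, genericPoint_mem _⟩⟩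
    apply C.germToFunctionField_injective (W' i ⊓ W' j)
    exact ((C.presheaf.germ_res_apply _ _ _ _).trans (hg' i)).trans
      ((C.presheaf.germ_res_apply _ _ _ _).trans (hg' j)).symm
  obtain ⟨s, hs, -⟩ := C.sheaf.existsUnique_gluing' W' U (fun z ↦ homOfLE inf_le_right)
    (fun z hz ↦ Opens.mem_iSup.mpr ⟨⟨z, hz⟩, hW ⟨z, hz⟩, hz⟩) g' hcompat
  refine ⟨s, ?_⟩
  obtain ⟨z⟩ := ‹Nonempty U›
  have := hne z
  rw [← hg' z, ← hs z]
  exact (C.presheaf.germ_res_apply _ _ _ _).symm

/-- A rational function and its inverse cannot both be irregular. -/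
theorem regularOpen_sup_inv (h : ∀ z : C, ValuationRing (C.presheaf.stalk z))
    (t : C.functionField) : regularOpen t ⊔ regularOpen t⁻¹ = ⊤ := by
  refine top_unique fun z _ ↦ ?_
  have := h z
  rcases ValuationRing.isInteger_or_isInteger (C.presheaf.stalk z) t with h' | h'
  · exact Or.inl h'
  · exact Or.inr h'

/-- The charts of `t` and `t⁻¹` meet where `t` is invertible on its chart. -/
theorem regularOpen_inf_inv {t : C.functionField} (ht : t ≠ 0) (s : Γ(C, regularOpen t))
    (hs : C.germToFunctionField (regularOpen t) s = t) :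
    regularOpen t ⊓ regularOpen t⁻¹ = C.basicOpen s := by
  ext z
  constructor
  · rintro ⟨hz, a, ha⟩
    have hprod : C.presheaf.germ (regularOpen t) z hz s * a = 1 := by
      apply IsFractionRing.injective (C.presheaf.stalk z) C.functionField
      rw [map_mul, map_one, C.algebraMap_germ_eq_germToFunctionField hz, hs, ha,
        mul_inv_cancel₀ ht]
    exact (C.mem_basicOpen s z hz).mpr (IsUnit.of_mul_eq_one _ hprod)
  · intro hz
    have hzU : z ∈ regularOpen t := C.basicOpen_le s hz
    obtain ⟨u, hu⟩ := (C.mem_basicOpen s z hzU).mp hz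
    refine ⟨hzU, ((u⁻¹ : (C.presheaf.stalk z)ˣ) : C.presheaf.stalk z), ?_⟩
    refine eq_inv_of_mul_eq_one_left ?_
    rw [← hs, ← C.algebraMap_germ_eq_germToFunctionField hzU s, ← hu, ← map_mul,
      Units.inv_mul, map_one]

end RationalFunction

end

end Fermat.PIC
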