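import Mathlib

/-!
# Domains stay domains over an algebraically closed field

A tensor product of two domains over an algebraically closed field is a domain: the product of two
coefficient families vanishes at every point of a finitely generated algebra, hence vanishes.
-/

set_option autoImplicit false

universe u v w

open scoped TensorProduct

namespace Fermat.PIC

variable {k : Type u} [Field k]

/-- A maximal ideal of a finitely generated algebra over an algebraically closed field is the kernel
of a point. -/
theorem exists_point_of_isMaximal [IsAlgClosed k] {A : Type v} [CommRing A] [Algebra k A]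
    [Algebra.FiniteType k A] (m : Ideal A) [m.IsMaximal] :
    ∃ φ : A →ₐ[k] k, RingHom.ker φ = m := by
  let := Ideal.Quotient.field m
  have : Algebra.FiniteType k (A ⧸ m) :=
    .of_surjective (Ideal.Quotient.mkₐ k m) (Ideal.Quotient.mkₐ_surjective k m)
  have : Module.Finite k (A ⧸ m) := finite_of_finite_type_of_isJacobsonRing k (A ⧸ m)
  let e : k ≃ₐ[k] (A ⧸ m) := AlgEquiv.ofBijective (Algebra.ofId k (A ⧸ m))
    IsAlgClosed.algebraMap_bijective_of_isIntegral
  refine ⟨e.symm.toAlgHom.comp (Ideal.Quotient.mkₐ k m), ?_⟩
  ext a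
  simp [RingHom.mem_ker, Ideal.Quotient.eq_zero_iff_mem]

variable {A : Type v} [CommRing A] [Algebra k A] {R : Type w} [CommRing R] [Algebra k R]

/-- An element of `A ⊗ R` is the sum of its coefficients tensored with the basis of `R`. -/
private theorem sum_repr {ι : Type*} (b : Module.Basis ι k R) (z : A ⊗[k] R) :
    (((b.baseChange A).repr z).sum fun i a => a ⊗ₜ[k] b i) = z := by
  conv_rhs => rw [← (b.baseChange A).linearCombination_repr z]
  rw [Finsupp.linearCombination_apply]
  refine Finsupp.sum_congr fun i _ => ?_
  rw [Module.Basis.baseChange_apply, TensorProduct.smul_tmul', smul_eq_mul, mul_one]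

/-- A domain of finite type tensored with a domain has no zero divisors. -/
private theorem noZeroDivisors_of_finiteType [IsAlgClosed k] [IsDomain A] [IsDomain R]
    [Algebra.FiniteType k A] : NoZeroDivisors (A ⊗[k] R) := by
  classical
  refine ⟨fun {z w} h => ?_⟩
  by_contra hcon
  push Not at hcon
  let b := Module.Basis.ofVectorSpace k R
  have hne : ∀ z : A ⊗[k] R, z ≠ 0 → ∃ i, (b.baseChange A).repr z i ≠ 0 := fun z hz => by
    by_contra hall
    push Not at hall
    exact hz ((b.baseChange A).repr.map_eq_zero_iff.mp (Finsupp.ext hall))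
  obtain ⟨i, hi⟩ := hne z hcon.1
  obtain ⟨j, hj⟩ := hne w hcon.2
  have : IsJacobsonRing A := isJacobsonRing_of_finiteType (A := k)
  refine mul_ne_zero hi hj ?_
  rw [← Ideal.mem_bot, ← IsJacobsonRing.out inferInstance (Ideal.isRadical_bot (R := A)),
    Ideal.jacobson, Ideal.mem_sInf]
  rintro m ⟨-, hm⟩
  obtain ⟨φ, rfl⟩ := exists_point_of_isMaximal (k := k) m
  let Φ : A ⊗[k] R →ₐ[k] R := Algebra.TensorProduct.lift ((Algebra.ofId k R).comp φ) (AlgHom.id k R)
    fun _ _ => Commute.all _ _
  have hcoef : ∀ (z : A ⊗[k] R) i, b.repr (Φ z) i = φ ((b.baseChange A).repr z i) := by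
    intro z i
    conv_lhs => rw [← sum_repr b z]
    simp only [map_finsuppSum, Φ, Algebra.TensorProduct.lift_tmul, AlgHom.comp_apply,
      AlgHom.id_apply, Algebra.ofId_apply, ← Algebra.smul_def, map_smul, b.repr_self,
      Finsupp.smul_single, smul_eq_mul, mul_one]
    rw [Finsupp.sum, Finsupp.finsetSum_apply, Finset.sum_eq_single i]
    · simp
    · intro j _ hji; simp [hji]
    · intro hi'; simp [Finsupp.notMem_support_iff.mp hi']
  have h0 : Φ z * Φ w = 0 := by rw [← map_mul, h, map_zero]
  rw [RingHom.mem_ker, map_mul]
  rcases mul_eq_zero.mp h0 with e | e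
  · rw [← hcoef z i, e]; simp
  · rw [← hcoef w j, e]; simp

/-- **A tensor product of domains over an algebraically closed field is a domain.** -/
theorem isDomain_tensor [IsAlgClosed k] [IsDomain A] [IsDomain R] : IsDomain (A ⊗[k] R) := by
  classical
  have : Nontrivial (A ⊗[k] R) :=
    Algebra.TensorProduct.nontrivial_of_algebraMap_injective_of_flat_left k A R
      (FaithfulSMul.algebraMap_injective k R)
  have : NoZeroDivisors (A ⊗[k] R) := by
    refine ⟨fun {z w} h => ?_⟩
    let b := Module.Basis.ofVectorSpace k R
    let S : Finset A := ((b.baseChange A).repr z).frange ∪ ((b.baseChange A).repr w).frange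
    let A' := Algebra.adjoin k (S : Set A)
    have : Algebra.FiniteType k A' :=
      A'.fg_iff_finiteType.mp (Subalgebra.fg_adjoin_finset S)
    let f : A' ⊗[k] R →ₐ[k] A ⊗[k] R := Algebra.TensorProduct.map A'.val (AlgHom.id k R)
    have hlift : ∀ z : A ⊗[k] R, ((b.baseChange A).repr z).frange ⊆ S → ∃ z', f z' = z := by
      intro z hz
      rw [← sum_repr b z]
      refine Subalgebra.sum_mem (AlgHom.range f) (t := ((b.baseChange A).repr z).support)
          fun i hi =>
        ⟨(⟨_, Algebra.subset_adjoin (hz (Finsupp.mem_frange.mpr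
          ⟨Finsupp.mem_support_iff.mp hi, i, rfl⟩))⟩ : A') ⊗ₜ b i, rfl⟩
    obtain ⟨z', hz'⟩ := hlift z Finset.subset_union_left
    obtain ⟨w', hw'⟩ := hlift w Finset.subset_union_right
    have hf : Function.Injective f :=
      Module.Flat.rTensor_preserves_injective_linearMap (M := R) A'.val.toLinearMap
        Subtype.val_injective
    have : NoZeroDivisors (A' ⊗[k] R) := noZeroDivisors_of_finiteType
    rw [← hz', ← hw', ← map_mul] at h
    rcases mul_eq_zero.mp (hf (h.trans (map_zero f).symm)) with e | e
    · exact Or.inl (by rw [← hz', e, map_zero])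
    · exact Or.inr (by rw [← hw', e, map_zero])
  exact NoZeroDivisors.to_isDomain _

end Fermat.PIC
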